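import Mathlib

set_option autoImplicit false

namespace Fermat.Agent.Lib.IS

open MvPolynomial

theorem exists_ringEquiv_extending {F K : Type*} [Field F] [Field K] [Algebra F K] [IsAlgClosed K]
    (τ : F ≃+* F) : ∃ σ : K ≃+* K, ∀ a : F, σ (algebraMap F K a) = algebraMap F K (τ a) := by
  obtain ⟨ι, v, hv⟩ := exists_isTranscendenceBasis' F K
  let _ := IsAlgClosed.isAlgClosure_of_transcendence_basis v hv
  let e : Algebra.adjoin F (Set.range v) ≃+* Algebra.adjoin F (Set.range v) :=
    (hv.1.aevalEquiv.symm.toRingEquiv.trans (MvPolynomial.mapEquiv ι τ)).trans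
      hv.1.aevalEquiv.toRingEquiv
  refine ⟨IsAlgClosure.equivOfEquiv K K e, fun a => ?_⟩
  have h1 : ∀ b : F, algebraMap F K b =
      algebraMap (Algebra.adjoin F (Set.range v)) K (algebraMap F _ b) := fun b => rfl
  rw [h1, IsAlgClosure.equivOfEquiv_algebraMap, h1]
  congr 1
  have h2 : hv.1.aevalEquiv.symm (algebraMap F _ a) = MvPolynomial.C a := by
    rw [AlgEquiv.commutes]; rfl
  simp only [e, RingEquiv.trans_apply, AlgEquiv.coe_ringEquiv, h2]
  rw [MvPolynomial.mapEquiv_apply, MvPolynomial.map_C]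
  exact hv.1.aevalEquiv.commutes (τ a)

theorem exists_ringEquiv_ne_of_transcendental {K : Type*} [Field K] [IsAlgClosed K] [CharZero K]
    {x : K} (hx : Transcendental ℚ x) : ∃ σ : K ≃+* K, σ x ≠ x := by
  have hs : AlgebraicIndepOn ℚ id ({x} : Set K) :=
    (algebraicIndependent_singleton_iff (⟨x, rfl⟩ : ({x} : Set K))).mpr hx
  obtain ⟨t, hst, hv⟩ := exists_isTranscendenceBasis_superset hs
  let _ := IsAlgClosed.isAlgClosure_of_transcendence_basis _ hv
  let i₀ : t := ⟨x, hst rfl⟩
  let φ : MvPolynomial t ℚ ≃ₐ[ℚ] MvPolynomial t ℚ :=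
    AlgEquiv.ofAlgHom (aeval fun i => C (2 : ℚ) * X i) (aeval fun i => C (1 / 2 : ℚ) * X i)
      (by
        ext i
        simp only [AlgHom.coe_comp, Function.comp_apply, aeval_X, map_mul, AlgHom.coe_id, id_eq,
          algHom_C, algebraMap_eq]
        rw [← mul_assoc, ← C_mul]
        norm_num)
      (by
        ext i
        simp only [AlgHom.coe_comp, Function.comp_apply, aeval_X, map_mul, AlgHom.coe_id, id_eq,
          algHom_C, algebraMap_eq]
        rw [← mul_assoc, ← C_mul]
        norm_num)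
  let e : Algebra.adjoin ℚ (Set.range ((↑) : t → K)) ≃+* Algebra.adjoin ℚ (Set.range ((↑) : t → K)) :=
    (hv.1.aevalEquiv.symm.toRingEquiv.trans φ.toRingEquiv).trans hv.1.aevalEquiv.toRingEquiv
  refine ⟨IsAlgClosure.equivOfEquiv K K e, ?_⟩
  have h1 : x = algebraMap (Algebra.adjoin ℚ (Set.range ((↑) : t → K))) K
      (hv.1.aevalEquiv (X i₀)) := by
    rw [AlgebraicIndependent.algebraMap_aevalEquiv, aeval_X]
  have h2 : IsAlgClosure.equivOfEquiv K K e x = 2 * x := by
    conv_lhs => rw [h1]
    rw [IsAlgClosure.equivOfEquiv_algebraMap]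
    simp only [e, RingEquiv.trans_apply, AlgEquiv.coe_ringEquiv, AlgEquiv.symm_apply_apply]
    rw [AlgebraicIndependent.algebraMap_aevalEquiv]
    simp [φ, i₀]
  rw [h2]
  intro h
  have hx0 : x ≠ 0 := by
    rintro rfl
    exact hx isAlgebraic_zero
  apply hx0
  linear_combination h

theorem exists_ringEquiv_ne_of_isAlgebraic {K : Type*} [Field K] [IsAlgClosed K] [CharZero K]
    {x : K} (hx : IsAlgebraic ℚ x) (hxq : x ∉ Set.range (algebraMap ℚ K)) :
    ∃ σ : K ≃+* K, σ x ≠ x := by
  have hxF : x ∈ algebraicClosure ℚ K := (mem_algebraicClosure_iff).mpr hx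
  have hnot : (⟨x, hxF⟩ : algebraicClosure ℚ K) ∉
      Set.range (algebraMap ℚ (algebraicClosure ℚ K)) := by
    rintro ⟨q, hq⟩
    exact hxq ⟨q, by simpa using congrArg (algebraMap (algebraicClosure ℚ K) K) hq⟩
  have : IsGalois ℚ (algebraicClosure ℚ K) :=
    @IsAlgClosure.isGalois ℚ (algebraicClosure ℚ K) _ _ _ (algebraicClosure.isAlgClosure ℚ K) _
  rw [InfiniteGalois.mem_range_algebraMap_iff_fixed] at hnot
  obtain ⟨τ, hτ⟩ := not_forall.mp hnot
  obtain ⟨σ, hσ⟩ := exists_ringEquiv_extending (K := K) τ.toRingEquiv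
  refine ⟨σ, fun h => hτ ?_⟩
  have := hσ ⟨x, hxF⟩
  apply Subtype.ext
  change σ x = _ at this
  rw [h] at this
  exact this.symm

theorem mem_range_ratCast_of_forall_ringEquiv {K : Type*} [Field K] [IsAlgClosed K] [CharZero K]
    {x : K} (h : ∀ σ : K ≃+* K, σ x = x) : ∃ q : ℚ, (q : K) = x := by
  by_contra hcon
  by_cases hx : IsAlgebraic ℚ x
  · obtain ⟨σ, hσ⟩ := exists_ringEquiv_ne_of_isAlgebraic hx (by
      rintro ⟨q, hq⟩
      exact hcon ⟨q, by simpa using hq⟩)
    exact hσ (h σ)
  · obtain ⟨σ, hσ⟩ := exists_ringEquiv_ne_of_transcendental hx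
    exact hσ (h σ)

theorem span_rational_eq_top {K V ι : Type*} [Field K] [IsAlgClosed K] [CharZero K]
    [AddCommGroup V] [Module K V] [FiniteDimensional K V]
    (a : V →ₗ[K] (ι → K)) (ha : Function.Injective a)
    (hσ : ∀ (σ : K ≃+* K) (f : V), ∃ g : V, ∀ n, a g n = σ (a f n)) :
    Submodule.span K {f : V | ∀ n, ∃ q : ℚ, (q : K) = a f n} = ⊤ := by
  classical
  let φ : ι → Module.Dual K V := fun n => (LinearMap.proj n).comp a
  have hspan : Submodule.span K (Set.range φ) = ⊤ := by
    have h0 : (Submodule.span K (Set.range φ)).dualCoannihilator = ⊥ := by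
      rw [eq_bot_iff]
      intro x hx
      rw [Submodule.mem_dualCoannihilator] at hx
      rw [Submodule.mem_bot]
      apply ha
      rw [map_zero]
      funext n
      exact hx (φ n) (Submodule.subset_span ⟨n, rfl⟩)
    have h1 := Subspace.dualCoannihilator_dualAnnihilator_eq
      (W := Submodule.span K (Set.range φ))
    rw [h0, Submodule.dualAnnihilator_bot] at h1
    exact h1.symm
  obtain ⟨b, hb_sub, hb_span, hb_li⟩ := exists_linearIndependent K (Set.range φ)
  let B : Module.Basis b K (Module.Dual K V) := Module.Basis.mk hb_li (by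
    rw [Subtype.range_coe, hb_span, hspan])
  have hBj : ∀ j : b, B j = (j : Module.Dual K V) := fun j => by simp [B]
  have : Finite b := Module.Finite.finite_basis B
  have : Fintype b := Fintype.ofFinite b
  let W : Module.Basis b K V := B.dualBasis.map (Module.evalEquiv K V).symm
  have hW : ∀ (i : b) (ψ : Module.Dual K V), ψ (W i) = B.dualBasis i ψ := by
    intro i ψ
    simp only [W, Module.Basis.map_apply]
    exact Module.apply_evalEquiv_symm_apply (R := K) (M := V) ψ (B.dualBasis i)
  have hWB : ∀ i j : b, B j (W i) = if j = i then 1 else 0 := by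
    intro i j
    rw [hW, Module.Basis.dualBasis_apply_self]
  have key : ∀ i : b, W i ∈ {f : V | ∀ n, ∃ q : ℚ, (q : K) = a f n} := by
    intro i n
    apply mem_range_ratCast_of_forall_ringEquiv
    intro σ
    obtain ⟨g, hg⟩ := hσ σ (W i)
    have hgW : g = W i := by
      apply (Module.evalEquiv K V).injective
      apply B.ext
      intro j
      rw [Module.evalEquiv_apply, Module.evalEquiv_apply, Module.Dual.eval_apply,
        Module.Dual.eval_apply]
      obtain ⟨m, hm⟩ := hb_sub j.2
      have e1 : B j g = a g m := by rw [hBj, ← hm]; rfl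
      have e2 : B j (W i) = a (W i) m := by rw [hBj, ← hm]; rfl
      rw [e1, hg m, ← e2, hWB]
      split_ifs <;> simp
    rw [← hg n, hgW]
  rw [eq_top_iff, ← W.span_eq]
  apply Submodule.span_mono
  rintro _ ⟨i, rfl⟩
  exact key i

end Fermat.Agent.Lib.IS
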