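import Mathlib

set_option autoImplicit false

namespace Fermat.Agent.Lib.IS

open PowerSeries Polynomial

/-- The coefficientwise inclusion of integral power series in rational ones. -/
noncomputable abbrev iZQ : ℤ⟦X⟧ →+* ℚ⟦X⟧ := PowerSeries.map (Int.castRingHom ℚ)

theorem iZQ_injective : Function.Injective iZQ :=
  PowerSeries.map_injective _ (RingHom.injective_int _)

/-- `ℤ⟦X⟧` is integrally closed, in the following concrete form. -/
theorem exists_int_of_integral_of_frac (g : ℚ⟦X⟧) (h b : ℤ⟦X⟧) (hh : h ≠ 0)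
    (hg : iZQ h * g = iZQ b) (p : Polynomial ℤ⟦X⟧) (hp : p.Monic) (hroot : p.eval₂ iZQ g = 0) :
    ∃ r : ℤ⟦X⟧, iZQ r = g := by
  let F := FractionRing ℤ⟦X⟧
  let L := FractionRing ℚ⟦X⟧
  let ι' : ℤ⟦X⟧ →+* L := (algebraMap ℚ⟦X⟧ L).comp iZQ
  have hι' : Function.Injective ι' :=
    (IsFractionRing.injective ℚ⟦X⟧ L).comp iZQ_injective
  let j : F →+* L := IsFractionRing.lift hι'
  have hj : ∀ r, j (algebraMap ℤ⟦X⟧ F r) = ι' r := fun r => IsFractionRing.lift_algebraMap hι' r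
  let y : F := algebraMap _ F b / algebraMap _ F h
  have hh' : algebraMap ℤ⟦X⟧ F h ≠ 0 := by
    simpa using (IsFractionRing.injective ℤ⟦X⟧ F).ne hh
  have hjy : j y = algebraMap ℚ⟦X⟧ L g := by
    have h1 : ι' h ≠ 0 := by simpa using hι'.ne hh
    simp only [y, map_div₀, hj]
    rw [div_eq_iff h1]
    simp only [ι', RingHom.comp_apply]
    rw [← hg, map_mul, mul_comm]
  have hy : IsIntegral ℤ⟦X⟧ y := by
    refine ⟨p, hp, ?_⟩
    apply j.injective
    rw [map_zero, Polynomial.hom_eval₂, hjy]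
    have : j.comp (algebraMap ℤ⟦X⟧ F) = (algebraMap ℚ⟦X⟧ L).comp iZQ := RingHom.ext hj
    rw [this, ← Polynomial.hom_eval₂, hroot, map_zero]
  obtain ⟨r, hr⟩ := IsIntegrallyClosed.algebraMap_eq_of_integral hy
  refine ⟨r, ?_⟩
  have h2 : algebraMap ℚ⟦X⟧ L (iZQ r) = algebraMap ℚ⟦X⟧ L g := by
    rw [← hjy, ← hr, hj]; rfl
  exact IsFractionRing.injective ℚ⟦X⟧ L h2

/-- The coefficientwise inclusion of rational power series in complex ones. -/
noncomputable abbrev iQC : ℚ⟦X⟧ →+* ℂ⟦X⟧ := PowerSeries.map (algebraMap ℚ ℂ)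

/-- The coefficientwise inclusion of integral power series in complex ones. -/
noncomputable abbrev iZC : ℤ⟦X⟧ →+* ℂ⟦X⟧ := PowerSeries.map (Int.castRingHom ℂ)

theorem iQC_injective : Function.Injective iQC :=
  PowerSeries.map_injective _ (algebraMap ℚ ℂ).injective

theorem iQC_iZQ (s : ℤ⟦X⟧) : iQC (iZQ s) = iZC s := by
  ext n; simp

/-- The complex span of the power series with integer coefficients. -/
noncomputable def spanC : Submodule ℂ ℂ⟦X⟧ := Submodule.span ℂ (Set.range iZC)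

/-- Apply a `ℚ`-linear functional coefficientwise. -/
noncomputable def Lam (l : ℂ →ₗ[ℚ] ℚ) (s : ℂ⟦X⟧) : ℚ⟦X⟧ := PowerSeries.mk fun n => l (coeff n s)

@[simp] theorem coeff_Lam (l : ℂ →ₗ[ℚ] ℚ) (s : ℂ⟦X⟧) (n : ℕ) :
    coeff n (Lam l s) = l (coeff n s) := by simp [Lam]

theorem Lam_add (l : ℂ →ₗ[ℚ] ℚ) (s t : ℂ⟦X⟧) : Lam l (s + t) = Lam l s + Lam l t := by
  ext n; simp

theorem Lam_zero (l : ℂ →ₗ[ℚ] ℚ) : Lam l 0 = 0 := by
  ext n; simp

theorem Lam_sum {ι : Type*} (l : ℂ →ₗ[ℚ] ℚ) (s : Finset ι) (f : ι → ℂ⟦X⟧) :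
    Lam l (∑ i ∈ s, f i) = ∑ i ∈ s, Lam l (f i) := by
  classical
  induction s using Finset.induction_on with
  | empty => simp [Lam_zero]
  | insert a s ha ih => rw [Finset.sum_insert ha, Finset.sum_insert ha, Lam_add, ih]

theorem Lam_mul_iQC (l : ℂ →ₗ[ℚ] ℚ) (s : ℂ⟦X⟧) (g : ℚ⟦X⟧) :
    Lam l (s * iQC g) = Lam l s * g := by
  ext n
  simp only [coeff_Lam, PowerSeries.coeff_mul, map_sum, PowerSeries.coeff_map]
  refine Finset.sum_congr rfl fun x _ => ?_
  have : coeff x.1 s * (algebraMap ℚ ℂ) (coeff x.2 g) = (coeff x.2 g) • coeff x.1 s := by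
    rw [Algebra.smul_def, mul_comm]
  rw [this, map_smul, smul_eq_mul, mul_comm]

theorem Lam_iQC (l : ℂ →ₗ[ℚ] ℚ) (g : ℚ⟦X⟧) : Lam l (iQC g) = PowerSeries.C (l 1) * g := by
  have := Lam_mul_iQC l 1 g
  rw [one_mul] at this
  rw [this]
  congr 1
  ext n
  simp only [coeff_Lam, PowerSeries.coeff_one, PowerSeries.coeff_C]
  split_ifs <;> simp

/-- Elements of `spanC` have bounded denominators after applying a functional. -/
theorem exists_int_mul_Lam {s : ℂ⟦X⟧} (hs : s ∈ spanC) :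
    ∀ l : ℂ →ₗ[ℚ] ℚ, ∃ E : ℤ, E ≠ 0 ∧ ∃ s' : ℤ⟦X⟧, iZQ s' = PowerSeries.C (E : ℚ) * Lam l s := by
  induction hs using Submodule.span_induction with
  | mem x hx =>
    intro l
    obtain ⟨s0, rfl⟩ := hx
    refine ⟨(l 1).den, by exact_mod_cast (l 1).den_ne_zero, PowerSeries.C (l 1).num * s0, ?_⟩
    rw [← iQC_iZQ, Lam_iQC, ← mul_assoc, ← map_mul, map_mul]
    congr 1
    ext n
    simp only [PowerSeries.coeff_map, PowerSeries.coeff_C]
    split_ifs
    · simp only [eq_intCast, Int.cast_natCast]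
      rw [mul_comm]; exact (Rat.mul_den_eq_num (l 1)).symm
    · simp
  | zero => exact fun l => ⟨1, one_ne_zero, 0, by simp [Lam_zero]⟩
  | add x y _ _ hx hy =>
    intro l
    obtain ⟨E1, hE1, s1, h1⟩ := hx l
    obtain ⟨E2, hE2, s2, h2⟩ := hy l
    refine ⟨E1 * E2, mul_ne_zero hE1 hE2, PowerSeries.C E2 * s1 + PowerSeries.C E1 * s2, ?_⟩
    rw [Lam_add, map_add, map_mul, map_mul, h1, h2]
    have e1 : iZQ (PowerSeries.C E1) = PowerSeries.C (E1 : ℚ) := by ext n; simp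
    have e2 : iZQ (PowerSeries.C E2) = PowerSeries.C (E2 : ℚ) := by ext n; simp
    rw [e1, e2]
    push_cast
    rw [map_mul]
    ring
  | smul a x _ hx =>
    intro l
    let l' : ℂ →ₗ[ℚ] ℚ := l.comp ((LinearMap.mulLeft ℂ a).restrictScalars ℚ)
    obtain ⟨E, hE, s', h⟩ := hx l'
    refine ⟨E, hE, s', ?_⟩
    rw [h]
    congr 1

theorem iZQ_C (E : ℤ) : iZQ (PowerSeries.C E) = PowerSeries.C (E : ℚ) := by ext n; simp

/-- Bounded denominators: a rational power series which is a quotient of two elements of `spanC`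
and is integral over `spanC` has bounded denominators. -/
theorem exists_int_mul_mem (g : ℚ⟦X⟧) (h b : ℂ⟦X⟧) (hh : h ≠ 0) (hhS : h ∈ spanC)
    (hbS : b ∈ spanC) (hg : h * iQC g = b) (μ : ℕ) (c : ℕ → ℂ⟦X⟧) (hc : ∀ i, c i ∈ spanC)
    (hroot : (iQC g) ^ μ + ∑ i ∈ Finset.range μ, c i * (iQC g) ^ i = 0) :
    ∃ D : ℤ, D ≠ 0 ∧ ∃ r : ℤ⟦X⟧, iZQ r = PowerSeries.C (D : ℚ) * g := by
  classical
  -- the fraction
  obtain ⟨m, hm⟩ : ∃ m, coeff m h ≠ 0 := by
    by_contra hcon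
    push Not at hcon
    exact hh (PowerSeries.ext (by simpa using hcon))
  obtain ⟨l1, hl1⟩ : ∃ l1 : ℂ →ₗ[ℚ] ℚ, l1 (coeff m h) ≠ 0 := by
    by_contra hcon
    push Not at hcon
    exact hm ((Module.forall_dual_apply_eq_zero_iff ℚ _).mp hcon)
  have hL1 : Lam l1 h ≠ 0 := by
    intro h0
    apply hl1
    have := congrArg (PowerSeries.coeff m) h0
    simpa using this
  have hfrac : Lam l1 h * g = Lam l1 b := by rw [← Lam_mul_iQC, hg]
  obtain ⟨E1, hE1, h', hh'⟩ := exists_int_mul_Lam hhS l1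
  obtain ⟨E2, hE2, b', hb'⟩ := exists_int_mul_Lam hbS l1
  -- the monic relation
  obtain ⟨l2, hl2⟩ : ∃ l2 : ℂ →ₗ[ℚ] ℚ, l2 1 = 1 := by
    obtain ⟨l, hl⟩ : ∃ l : ℂ →ₗ[ℚ] ℚ, l 1 ≠ 0 := by
      by_contra hcon
      push Not at hcon
      exact one_ne_zero ((Module.forall_dual_apply_eq_zero_iff ℚ (1 : ℂ)).mp hcon)
    exact ⟨(l 1)⁻¹ • l, by simp [hl]⟩
  have hrel : g ^ μ + ∑ i ∈ Finset.range μ, Lam l2 (c i) * g ^ i = 0 := by
    have := congrArg (Lam l2) hroot
    rw [Lam_add, Lam_sum, Lam_zero, ← map_pow, Lam_iQC, hl2, map_one, one_mul] at this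
    rw [← this]
    congr 1
    refine Finset.sum_congr rfl fun i _ => ?_
    rw [← map_pow, Lam_mul_iQC]
  choose E hE c' hc' using fun i => exists_int_mul_Lam (hc i) l2
  let D : ℤ := ∏ i ∈ Finset.range μ, E i
  have hD : D ≠ 0 := Finset.prod_ne_zero_iff.mpr fun i _ => hE i
  have hDc : ∀ i ∈ Finset.range μ, ∃ d : ℤ⟦X⟧,
      iZQ d = PowerSeries.C ((D : ℚ) ^ (μ - i)) * Lam l2 (c i) := by
    intro i hi
    have hi' : i < μ := Finset.mem_range.mp hi
    obtain ⟨k, hk⟩ : ∃ k : ℤ, D = k * E i := by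
      exact ⟨∏ j ∈ (Finset.range μ).erase i, E j, by
        rw [mul_comm]; exact (Finset.mul_prod_erase _ _ hi).symm⟩
    refine ⟨PowerSeries.C (D ^ (μ - i - 1) * k) * c' i, ?_⟩
    rw [map_mul, hc', iZQ_C, ← mul_assoc, ← map_mul]
    congr 2
    have : μ - i = (μ - i - 1) + 1 := by omega
    rw [this, pow_succ, Nat.add_sub_cancel]
    have hk' : (D : ℚ) = k * E i := by exact_mod_cast hk
    push_cast
    rw [mul_assoc, ← hk']
  choose! d hd using hDc
  let P : Polynomial ℤ⟦X⟧ := Polynomial.X ^ μ + ∑ i ∈ Finset.range μ, Polynomial.C (d i) * Polynomial.X ^ i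
  have hPmonic : P.Monic := by
    apply Polynomial.monic_X_pow_add
    refine (Polynomial.degree_sum_le _ _).trans_lt ?_
    rw [Finset.sup_lt_iff (by exact WithBot.bot_lt_coe μ)]
    intro i hi
    refine (Polynomial.degree_C_mul_X_pow_le _ _).trans_lt ?_
    exact_mod_cast Finset.mem_range.mp hi
  have hProot : P.eval₂ iZQ (PowerSeries.C (D : ℚ) * g) = 0 := by
    simp only [P, Polynomial.eval₂_add, Polynomial.eval₂_pow, Polynomial.eval₂_X,
      Polynomial.eval₂_finsetSum, Polynomial.eval₂_mul, Polynomial.eval₂_C]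
    have : (PowerSeries.C (D : ℚ) * g) ^ μ +
        ∑ i ∈ Finset.range μ, iZQ (d i) * (PowerSeries.C (D : ℚ) * g) ^ i =
        PowerSeries.C ((D : ℚ) ^ μ) * (g ^ μ + ∑ i ∈ Finset.range μ, Lam l2 (c i) * g ^ i) := by
      rw [mul_add, Finset.mul_sum, mul_pow, map_pow]
      congr 1
      refine Finset.sum_congr rfl fun i hi => ?_
      have hi' : i < μ := Finset.mem_range.mp hi
      rw [hd i hi, mul_pow]
      have : (D : ℚ) ^ μ = (D : ℚ) ^ (μ - i) * (D : ℚ) ^ i := by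
        rw [← pow_add]; congr 1; omega
      rw [← map_pow PowerSeries.C (D : ℚ) μ, this, map_mul, map_pow, map_pow]
      ring
    rw [this, hrel, mul_zero]
  refine ⟨D, hD, ?_⟩
  refine exists_int_of_integral_of_frac _ (PowerSeries.C E2 * h') (PowerSeries.C (E1 * D) * b')
    ?_ ?_ P hPmonic hProot
  · apply mul_ne_zero
    · intro h0
      apply hE2
      have := congrArg (PowerSeries.coeff 0) h0
      simpa using this
    · intro h0
      rw [h0, map_zero] at hh'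
      have : PowerSeries.C (E1 : ℚ) ≠ 0 := by
        intro h1
        apply hE1
        have := congrArg (PowerSeries.coeff 0) h1
        simpa using this
      exact (mul_ne_zero this hL1) hh'.symm
  · rw [map_mul, map_mul, hh', hb', iZQ_C, iZQ_C, ← hfrac]
    push_cast
    rw [map_mul]
    ring

end Fermat.Agent.Lib.IS
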