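import Mathlib
import Fermat.Agent.Lib.IS.FixedField
import Fermat.Agent.Lib.IS.BoundedDenomAlt

set_option autoImplicit false

namespace Fermat.Agent.Lib.IS

open Module

/-- A separating family of functionals on a finite-dimensional space contains a basis of the dual;
we return the dual basis of the space. -/
theorem exists_basis_dual_to_family {K V : Type*} [Field K] [AddCommGroup V] [Module K V]
    [FiniteDimensional K V] {I : Type*} (ev : I → V →ₗ[K] K)
    (hsep : ∀ v, (∀ i, ev i v = 0) → v = 0) :
    ∃ (n : ℕ) (b : Basis (Fin n) K V) (f : Fin n → I),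
      ∀ a c, ev (f c) (b a) = if a = c then 1 else 0 := by
  classical
  have hspan : Submodule.span K (Set.range ev) = ⊤ := by
    have h0 : (Submodule.span K (Set.range ev)).dualCoannihilator = ⊥ := by
      rw [eq_bot_iff]
      intro v hv
      rw [Submodule.mem_dualCoannihilator] at hv
      exact hsep v fun i => hv _ (Submodule.subset_span ⟨i, rfl⟩)
    have h1 := Subspace.dualCoannihilator_dualAnnihilator_eq
      (W := Submodule.span K (Set.range ev))
    rw [h0, Submodule.dualAnnihilator_bot] at h1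
    exact h1.symm
  obtain ⟨t, hts, htspan, htli⟩ := exists_linearIndependent K (Set.range ev)
  have htfin : t.Finite := htli.setFinite
  have : Fintype t := htfin.fintype
  let B : Basis t K (Dual K V) := Basis.mk htli (by rw [Subtype.range_coe, htspan, hspan])
  let e : t ≃ Fin (Fintype.card t) := Fintype.equivFin t
  let B' : Basis (Fin (Fintype.card t)) K (Dual K V) := B.reindex e
  let b : Basis (Fin (Fintype.card t)) K V := B'.dualBasis.map (evalEquiv K V).symm
  have hB' : ∀ c, ∃ i, ev i = B' c := by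
    intro c
    have : B' c = ((e.symm c : t) : Dual K V) := by simp [B', B]
    rw [this]
    exact hts (e.symm c).2
  choose f hf using hB'
  refine ⟨_, b, f, fun a c => ?_⟩
  rw [hf]
  have h2 : (B' c) (b a) = (evalEquiv K V (b a)) (B' c) := by simp
  rw [h2]
  simp only [b, Basis.map_apply, LinearEquiv.apply_symm_apply]
  rw [Basis.dualBasis_apply_self]
  simp [eq_comm]

open PowerSeries in
/-- Abstract integral structure theorem. A finite-dimensional space of complex power series which
is stable under all ring automorphisms of `ℂ` (acting on coefficients), all of whose elements are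
quotients of elements of `spanC` and integral over `spanC`, is spanned by its elements with integer
coefficients. -/
theorem span_integral_eq_top {V : Type*} [AddCommGroup V] [Module ℂ V] [FiniteDimensional ℂ V]
    (Q : V →ₗ[ℂ] ℂ⟦X⟧) (hQ : Function.Injective Q)
    (hσ : ∀ (σ : ℂ ≃+* ℂ) (v : V), ∃ v', Q v' = PowerSeries.map (σ : ℂ →+* ℂ) (Q v))
    (hfrac : ∀ v, ∃ h b : ℂ⟦X⟧, h ≠ 0 ∧ h ∈ spanC ∧ b ∈ spanC ∧ h * Q v = b)
    (hint : ∀ v, ∃ (μ : ℕ) (c : ℕ → ℂ⟦X⟧), (∀ i, c i ∈ spanC) ∧
      (Q v) ^ μ + ∑ i ∈ Finset.range μ, c i * (Q v) ^ i = 0) :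
    Submodule.span ℂ {v : V | ∀ n, ∃ m : ℤ, PowerSeries.coeff n (Q v) = m} = ⊤ := by
  classical
  let ev : ℕ → V →ₗ[ℂ] ℂ := fun n => (PowerSeries.coeff (R := ℂ) n).comp Q
  have hsep : ∀ v, (∀ i, ev i v = 0) → v = 0 := by
    intro v hv
    apply hQ
    rw [map_zero]
    ext n
    simpa [ev] using hv n
  obtain ⟨d, b, f, hbf⟩ := exists_basis_dual_to_family ev hsep
  have hcoord : ∀ v, (∀ c, ev (f c) v = 0) → v = 0 := by
    intro v hv
    have : ∀ c, b.repr v c = 0 := by
      intro c
      have h1 := hv c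
      rw [← b.sum_repr v, map_sum] at h1
      simpa [hbf] using h1
    rw [← b.sum_repr v]
    simp [this]
  have hrat : ∀ a, ∃ g : ℚ⟦X⟧, iQC g = Q (b a) := by
    intro a
    have hfix : ∀ σ : ℂ ≃+* ℂ, PowerSeries.map (σ : ℂ →+* ℂ) (Q (b a)) = Q (b a) := by
      intro σ
      obtain ⟨v', hv'⟩ := hσ σ (b a)
      have : v' - b a = 0 := by
        apply hcoord
        intro c
        have h1 : ev (f c) v' = σ (ev (f c) (b a)) := by
          simp only [ev, LinearMap.comp_apply, hv']
          simp
        rw [map_sub, h1, hbf]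
        split_ifs <;> simp
      rw [← hv', sub_eq_zero.mp this]
    have hr : ∀ n, ∃ r : ℚ, (r : ℂ) = PowerSeries.coeff n (Q (b a)) := by
      intro n
      apply mem_range_ratCast_of_forall_ringEquiv
      intro σ
      have := congrArg (PowerSeries.coeff n) (hfix σ)
      simpa using this
    choose r hr using hr
    exact ⟨PowerSeries.mk r, by ext n; simp [hr]⟩
  rw [eq_top_iff, ← b.span_eq, Submodule.span_le]
  rintro _ ⟨a, rfl⟩
  obtain ⟨g, hg⟩ := hrat a
  obtain ⟨h, b', hh, hhS, hbS, hfr⟩ := hfrac (b a)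
  obtain ⟨μ, c, hc, hroot⟩ := hint (b a)
  rw [← hg] at hfr hroot
  obtain ⟨D, hD, r, hr⟩ := exists_int_mul_mem g h b' hh hhS hbS hfr μ c hc hroot
  have hDC : (D : ℂ) ≠ 0 := by exact_mod_cast hD
  have hmem : (D : ℂ) • b a ∈ {v : V | ∀ n, ∃ m : ℤ, PowerSeries.coeff n (Q v) = m} := by
    intro n
    refine ⟨PowerSeries.coeff n r, ?_⟩
    rw [map_smul, ← hg]
    have := congrArg (fun s => ((PowerSeries.coeff n s : ℚ) : ℂ)) hr
    simp only [PowerSeries.coeff_map, PowerSeries.coeff_C_mul] at this
    simp only [map_smul, smul_eq_mul, PowerSeries.coeff_map]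
    push_cast at this
    simpa using this.symm
  have : b a = (D : ℂ)⁻¹ • ((D : ℂ) • b a) := by rw [smul_smul, inv_mul_cancel₀ hDC, one_smul]
  rw [this]
  exact Submodule.smul_mem _ _ (Submodule.subset_span hmem)

end Fermat.Agent.Lib.IS
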