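import Mathlib

set_option autoImplicit false

open UpperHalfPlane ModularForm Complex Filter Topology
open scoped MatrixGroups Manifold

namespace Fermat.Agent.Lib.IS

/-- Cauchy root bound for a monic equation. -/
lemma norm_le_of_monic {n : ℕ} {x : ℂ} {a : ℕ → ℂ}
    (h : x ^ n + ∑ m ∈ Finset.range n, a (m + 1) * x ^ (n - 1 - m) = 0) :
    ‖x‖ ≤ max 1 (∑ m ∈ Finset.range n, ‖a (m + 1)‖) := by
  rcases le_or_gt ‖x‖ 1 with h1 | h1
  · exact le_max_of_le_left h1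
  · refine le_max_of_le_right ?_
    rcases n with _ | n
    · simp at h
    · have hx : x ^ (n + 1) = - ∑ m ∈ Finset.range (n + 1), a (m + 1) * x ^ (n + 1 - 1 - m) := by
        linear_combination h
      have h2 : ‖x‖ ^ (n + 1) ≤ (∑ m ∈ Finset.range (n + 1), ‖a (m + 1)‖) * ‖x‖ ^ n := by
        rw [← norm_pow, hx, norm_neg, Finset.sum_mul]
        refine (norm_sum_le _ _).trans (Finset.sum_le_sum fun m hm => ?_)
        rw [norm_mul, norm_pow]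
        gcongr
        · exact h1.le
        · omega
      have h3 : 0 < ‖x‖ ^ n := by positivity
      rw [pow_succ'] at h2
      exact le_of_mul_le_mul_right h2 h3

/-- Second root bound: used for vanishing at the cusps. -/
lemma norm_pow_le_of_monic {n : ℕ} {x : ℂ} {a : ℕ → ℂ}
    (h : x ^ n + ∑ m ∈ Finset.range n, a (m + 1) * x ^ (n - 1 - m) = 0)
    (h1 : ∑ m ∈ Finset.range n, ‖a (m + 1)‖ ≤ 1) :
    ‖x‖ ^ n ≤ ∑ m ∈ Finset.range n, ‖a (m + 1)‖ := by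
  have hx1 : ‖x‖ ≤ 1 := by simpa [h1] using norm_le_of_monic h
  have hx : x ^ n = - ∑ m ∈ Finset.range n, a (m + 1) * x ^ (n - 1 - m) := by
    linear_combination h
  rw [← norm_pow, hx, norm_neg]
  refine (norm_sum_le _ _).trans (Finset.sum_le_sum fun m hm => ?_)
  rw [norm_mul, norm_pow]
  exact mul_le_of_le_one_right (norm_nonneg _) (pow_le_one₀ (norm_nonneg _) hx1)

/-- Removable singularities for a locally bounded quotient of holomorphic functions. -/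
lemma exists_differentiableOn_quotient {U : Set ℂ} (hU : IsOpen U) (hUc : IsPreconnected U)
    {B₁ B₂ : ℂ → ℂ} (h₁ : DifferentiableOn ℂ B₁ U) (h₂ : DifferentiableOn ℂ B₂ U)
    (h₂0 : ∃ z ∈ U, B₂ z ≠ 0)
    (hbd : ∀ z ∈ U, ∃ C : ℝ, ∀ᶠ w in 𝓝 z, B₂ w ≠ 0 → ‖B₁ w / B₂ w‖ ≤ C)
    (hz : ∀ z ∈ U, B₂ z = 0 → B₁ z = 0) :
    ∃ G : ℂ → ℂ, DifferentiableOn ℂ G U ∧ ∀ z ∈ U, G z * B₂ z = B₁ z := by
  set Q : ℂ → ℂ := fun z => B₁ z / B₂ z with hQ
  set G : ℂ → ℂ := fun z => limUnder (𝓝[≠] z) Q with hG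
  have hiso : ∀ z ∈ U, ∀ᶠ w in 𝓝[≠] z, B₂ w ≠ 0 := by
    intro z hzU
    by_contra hcon
    have hfreq : ∃ᶠ w in 𝓝[≠] z, B₂ w = 0 := fun h => hcon h
    obtain ⟨z₀, hz₀, hne⟩ := h₂0
    exact hne ((h₂.analyticOnNhd hU).eqOn_zero_of_preconnected_of_frequently_eq_zero hUc hzU hfreq hz₀)
  have hQd : ∀ w ∈ U, B₂ w ≠ 0 → DifferentiableAt ℂ Q w := by
    intro w hw hne
    exact ((h₁ w hw).differentiableAt (hU.mem_nhds hw)).div
      ((h₂ w hw).differentiableAt (hU.mem_nhds hw)) hne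
  have hGQ : ∀ w ∈ U, B₂ w ≠ 0 → G w = Q w := by
    intro w hw hne
    have : Tendsto Q (𝓝[≠] w) (𝓝 (Q w)) :=
      ((hQd w hw hne).continuousAt.tendsto).mono_left nhdsWithin_le_nhds
    exact this.limUnder_eq
  refine ⟨G, ?_, ?_⟩
  · intro z hzU
    obtain ⟨C, hC⟩ := hbd z hzU
    have h1 : ∀ᶠ w in 𝓝 z, w ≠ z → B₂ w ≠ 0 := by
      have := hiso z hzU
      rwa [eventually_nhdsWithin_iff] at this
    have h2 : ∀ᶠ w in 𝓝 z, w ∈ U := hU.mem_nhds hzU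
    obtain ⟨ε, hε, hball⟩ := Metric.eventually_nhds_iff_ball.mp (hC.and (h1.and h2))
    have hs : Metric.ball z ε ∈ 𝓝 z := Metric.ball_mem_nhds z hε
    have hd : DifferentiableOn ℂ Q (Metric.ball z ε \ {z}) := by
      intro w hw
      exact (hQd w (hball w hw.1).2.2 ((hball w hw.1).2.1 hw.2)).differentiableWithinAt
    have hb : BddAbove (norm ∘ Q '' (Metric.ball z ε \ {z})) := by
      refine ⟨C, ?_⟩
      rintro _ ⟨w, hw, rfl⟩
      exact (hball w hw.1).1 ((hball w hw.1).2.1 hw.2)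
    have hupd := Complex.differentiableOn_update_limUnder_of_bddAbove hs hd hb
    have hEq : Set.EqOn G (Function.update Q z (limUnder (𝓝[≠] z) Q)) (Metric.ball z ε) := by
      intro w hw
      by_cases hwz : w = z
      · subst hwz; simp [hG]
      · rw [Function.update_of_ne hwz]
        exact hGQ w (hball w hw).2.2 ((hball w hw).2.1 hwz)
    exact ((hupd.congr hEq).differentiableAt hs).differentiableWithinAt
  · intro z hzU
    by_cases hne : B₂ z = 0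
    · rw [hne, hz z hzU hne, mul_zero]
    · rw [hGQ z hzU hne]
      simp only [hQ]
      field_simp

/-- Upper half plane version of `exists_differentiableOn_quotient`. -/
lemma exists_mdiff_quotient {b₁ b₂ : ℍ → ℂ} (hb₁ : MDiff b₁) (hb₂ : MDiff b₂) (hb₂0 : b₂ ≠ 0)
    {M : ℍ → ℝ} (hM : Continuous M) (hbd : ∀ z, b₂ z ≠ 0 → ‖b₁ z / b₂ z‖ ≤ M z)
    (hz : ∀ z, b₂ z = 0 → b₁ z = 0) :
    ∃ F : ℍ → ℂ, MDiff F ∧ F * b₂ = b₁ := by
  have hU : IsOpen {z : ℂ | 0 < z.im} := isOpen_upperHalfPlaneSet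
  have hUc : IsPreconnected {z : ℂ | 0 < z.im} := (convex_halfSpace_im_gt 0).isPreconnected
  have hA : ∃ z ∈ {z : ℂ | 0 < z.im}, (b₂ ∘ ofComplex) z ≠ 0 := by
    obtain ⟨τ, hτ⟩ := Function.ne_iff.mp hb₂0
    exact ⟨τ, τ.im_pos, by simpa using hτ⟩
  have hB : ∀ z ∈ {z : ℂ | 0 < z.im}, ∃ C : ℝ, ∀ᶠ w in 𝓝 z, (b₂ ∘ ofComplex) w ≠ 0 →
      ‖(b₁ ∘ ofComplex) w / (b₂ ∘ ofComplex) w‖ ≤ C := by
    intro z hz
    refine ⟨M ⟨z, hz⟩ + 1, ?_⟩
    have h1 : ∀ᶠ w in 𝓝 (⟨z, hz⟩ : ℍ), M w < M ⟨z, hz⟩ + 1 :=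
      (hM.tendsto _).eventually_lt_const (by linarith)
    have h2 : ∀ᶠ w in 𝓝 (((⟨z, hz⟩ : ℍ) : ℂ)), (b₂ ∘ ofComplex) w ≠ 0 →
        ‖(b₁ ∘ ofComplex) w / (b₂ ∘ ofComplex) w‖ ≤ M ⟨z, hz⟩ + 1 := by
      rw [← isOpenEmbedding_coe.map_nhds_eq, eventually_map]
      filter_upwards [h1] with w hw hne
      simp only [Function.comp_apply, ofComplex_apply] at hne ⊢
      exact (hbd w hne).trans hw.le
    exact h2
  have hC : ∀ z ∈ {z : ℂ | 0 < z.im}, (b₂ ∘ ofComplex) z = 0 → (b₁ ∘ ofComplex) z = 0 := by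
    intro z hz' h0
    simp only [Function.comp_apply, ofComplex_apply_of_im_pos hz'] at h0 ⊢
    exact hz _ h0
  obtain ⟨G, hG, hGmul⟩ := exists_differentiableOn_quotient hU hUc
    (mdifferentiable_iff.mp hb₁) (mdifferentiable_iff.mp hb₂) hA hB hC
  refine ⟨fun τ => G τ, ?_, ?_⟩
  · rw [mdifferentiable_iff]
    refine hG.congr fun z hz => ?_
    simp [ofComplex_apply_of_im_pos hz]
  · ext τ
    simpa using hGmul τ τ.im_pos

/-- Homogenisation identity. -/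
lemma homog_eq {n : ℕ} (a : ℕ → ℂ) (x b : ℂ) :
    (x * b) ^ n + ∑ m ∈ Finset.range n, a (m + 1) * (x * b) ^ (n - 1 - m) * b ^ (m + 1) =
      b ^ n * (x ^ n + ∑ m ∈ Finset.range n, a (m + 1) * x ^ (n - 1 - m)) := by
  rw [mul_add, Finset.mul_sum, mul_pow, mul_comm (x ^ n)]
  congr 1
  refine Finset.sum_congr rfl fun m hm => ?_
  have hm' : m < n := Finset.mem_range.mp hm
  have : b ^ n = b ^ (n - 1 - m) * b ^ (m + 1) := by
    rw [← pow_add]; congr 1; omega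
  rw [this, mul_pow]
  ring

/-- The core: the quotient `b₁ / b₂` extends to a holomorphic slash-invariant function which
satisfies the dehomogenised monic equation. -/
theorem exists_quotient_core {Γ : Subgroup (GL (Fin 2) ℝ)} [Γ.HasDetPlusMinusOne]
    {k w : ℤ} {n : ℕ} {b₁ b₂ : ℍ → ℂ} {a : ℕ → ℍ → ℂ}
    (hb₁ : MDiff b₁) (hb₂ : MDiff b₂) (hb₂0 : b₂ ≠ 0)
    (hb₁Γ : ∀ γ ∈ Γ, b₁ ∣[k + w] γ = b₁) (hb₂Γ : ∀ γ ∈ Γ, b₂ ∣[w] γ = b₂)
    (ha : ∀ m, MDiff (a m))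
    (heq : ∀ z, b₁ z ^ n +
      ∑ m ∈ Finset.range n, a (m + 1) z * b₁ z ^ (n - 1 - m) * b₂ z ^ (m + 1) = 0) :
    ∃ F : ℍ → ℂ, MDiff F ∧ F * b₂ = b₁ ∧ (∀ γ ∈ Γ, F ∣[k] γ = F) ∧
      ∀ z, F z ^ n + ∑ m ∈ Finset.range n, a (m + 1) z * F z ^ (n - 1 - m) = 0 := by
  have hM : Continuous fun z : ℍ => max (1 : ℝ) (∑ m ∈ Finset.range n, ‖a (m + 1) z‖) := by
    refine continuous_const.max (continuous_finsetSum _ fun m _ => ?_)
    exact (ha (m + 1)).continuous.norm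
  have hbd : ∀ z, b₂ z ≠ 0 → ‖b₁ z / b₂ z‖ ≤ max (1 : ℝ) (∑ m ∈ Finset.range n, ‖a (m + 1) z‖) := by
    intro z hz
    apply norm_le_of_monic (a := fun m => a m z)
    have h1 := homog_eq (n := n) (fun m => a m z) (b₁ z / b₂ z) (b₂ z)
    rw [div_mul_cancel₀ _ hz, heq z] at h1
    exact (mul_eq_zero.mp h1.symm).resolve_left (pow_ne_zero _ hz)
  have hz : ∀ z, b₂ z = 0 → b₁ z = 0 := by
    intro z hz
    have h1 := heq z
    rw [hz] at h1
    simp only [ne_eq, Nat.add_eq_zero_iff, one_ne_zero, and_false, not_false_eq_true, zero_pow,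
      mul_zero, Finset.sum_const_zero, add_zero] at h1
    exact pow_eq_zero_iff (n := n) (by
      rintro rfl
      simp at h1) |>.mp h1
  obtain ⟨F, hF, hFb⟩ := exists_mdiff_quotient hb₁ hb₂ hb₂0 hM hbd hz
  refine ⟨F, hF, hFb, ?_, ?_⟩
  · intro γ hγ
    have h1 : (F * b₂) ∣[k + w] γ = F ∣[k] γ * b₂ := by
      rw [mul_slash, hb₂Γ γ hγ, Subgroup.HasDetPlusMinusOne.abs_det hγ, one_smul]
    rw [hFb, hb₁Γ γ hγ, ← hFb] at h1
    have h2 : (F ∣[k] γ - F) * b₂ = 0 := by rw [sub_mul, ← h1, sub_self]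
    have h3 := (UpperHalfPlane.mul_eq_zero_iff ((hF.slash k γ).sub hF) hb₂).mp h2
    exact sub_eq_zero.mp (h3.resolve_right hb₂0)
  · set E : ℍ → ℂ := F ^ n + ∑ m ∈ Finset.range n, a (m + 1) * F ^ (n - 1 - m) with hE
    have hEd : MDiff E := by
      refine (hF.pow n).add (MDifferentiable.sum fun m _ => ?_)
      exact (ha (m + 1)).mul (hF.pow _)
    have h2 : b₂ ^ n * E = 0 := by
      ext z
      have h1 := homog_eq (n := n) (fun m => a m z) (F z) (b₂ z)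
      have h3 : F z * b₂ z = b₁ z := congrFun hFb z
      rw [h3, heq z] at h1
      simp only [hE, Pi.mul_apply, Pi.pow_apply, Pi.add_apply, Finset.sum_apply, Pi.zero_apply]
      exact h1.symm
    have h3 := (UpperHalfPlane.mul_eq_zero_iff (hb₂.pow n) hEd).mp h2
    have h4 : b₂ ^ n ≠ 0 := by
      obtain ⟨τ, hτ⟩ := Function.ne_iff.mp hb₂0
      exact Function.ne_iff.mpr ⟨τ, by simpa using pow_ne_zero n hτ⟩
    intro z
    have := congrFun (h3.resolve_left h4) z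
    simpa [hE] using this

/-- The monic equation is stable under slashing by `SL(2, ℤ)`. -/
lemma slash_monic {k : ℤ} {n : ℕ} {F : ℍ → ℂ} {a : ℕ → ℍ → ℂ}
    (haSL : ∀ (m : ℕ) (γ : SL(2, ℤ)), a m ∣[(m : ℤ) * k] γ = a m)
    (hF : ∀ z, F z ^ n + ∑ m ∈ Finset.range n, a (m + 1) z * F z ^ (n - 1 - m) = 0)
    (δ : SL(2, ℤ)) (z : ℍ) :
    (F ∣[k] δ) z ^ n + ∑ m ∈ Finset.range n, a (m + 1) z * (F ∣[k] δ) z ^ (n - 1 - m) = 0 := by
  set u : ℂ := denom δ z ^ (-k) with hu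
  have h1 : (F ∣[k] δ) z = F (δ • z) * u := by rw [SL_slash_apply]
  have h2 : ∀ m : ℕ, a m z = a m (δ • z) * u ^ m := by
    intro m
    have := congrFun (haSL m δ) z
    rw [SL_slash_apply] at this
    rw [← this, hu, ← zpow_natCast, ← zpow_mul]
    congr 2
    ring
  have h3 := homog_eq (n := n) (fun m => a m (δ • z)) (F (δ • z)) u
  rw [hF (δ • z), mul_zero] at h3
  rw [h1, ← h3]
  congr 1
  refine Finset.sum_congr rfl fun m _ => ?_
  rw [h2 (m + 1)]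
  ring

/-- Main analytic theorem, modular form version. -/
theorem exists_modularForm_of_integral {Γ : Subgroup (GL (Fin 2) ℝ)} [Γ.IsArithmetic]
    [Γ.HasDetPlusMinusOne]
    {k w : ℤ} {n : ℕ} {b₁ b₂ : ℍ → ℂ} {a : ℕ → ℍ → ℂ}
    (hb₁ : MDiff b₁) (hb₂ : MDiff b₂) (hb₂0 : b₂ ≠ 0)
    (hb₁Γ : ∀ γ ∈ Γ, b₁ ∣[k + w] γ = b₁) (hb₂Γ : ∀ γ ∈ Γ, b₂ ∣[w] γ = b₂)
    (ha : ∀ m, MDiff (a m)) (haSL : ∀ (m : ℕ) (γ : SL(2, ℤ)), a m ∣[(m : ℤ) * k] γ = a m)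
    (habdd : ∀ m, IsBoundedAtImInfty (a m))
    (heq : ∀ z, b₁ z ^ n +
      ∑ m ∈ Finset.range n, a (m + 1) z * b₁ z ^ (n - 1 - m) * b₂ z ^ (m + 1) = 0) :
    ∃ F : ModularForm Γ k, ∀ z, F z * b₂ z = b₁ z := by
  obtain ⟨F, hF, hFb, hFΓ, hFeq⟩ := exists_quotient_core hb₁ hb₂ hb₂0 hb₁Γ hb₂Γ ha heq
  refine ⟨{ toFun := F, slash_action_eq' := hFΓ, holo' := hF, bdd_at_cusps' := ?_ },
    fun z => congrFun hFb z⟩
  intro c hc
  rw [Subgroup.IsArithmetic.isCusp_iff_isCusp_SL2Z] at hc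
  rw [OnePoint.isBoundedAt_iff_forall_SL2Z hc]
  intro δ _
  have hS : (fun z : ℍ => (1 : ℝ) + ∑ m ∈ Finset.range n, ‖a (m + 1) z‖) =O[atImInfty]
      (1 : ℍ → ℝ) := by
    refine (Asymptotics.isBigO_refl _ _).add (Asymptotics.IsBigO.fun_sum fun m _ => ?_)
    exact (habdd (m + 1)).norm_left
  refine Asymptotics.IsBigO.trans (Asymptotics.isBigO_of_le _ fun z => ?_) hS
  have h1 := norm_le_of_monic (a := fun m => a m z) (slash_monic haSL hFeq δ z)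
  have h2 : 0 ≤ ∑ m ∈ Finset.range n, ‖a (m + 1) z‖ := Finset.sum_nonneg fun _ _ => norm_nonneg _
  rw [Real.norm_of_nonneg (by positivity)]
  exact h1.trans (max_le (by linarith) (by linarith))

/-- Main analytic theorem, cusp form version. -/
theorem exists_cuspForm_of_integral {Γ : Subgroup (GL (Fin 2) ℝ)} [Γ.IsArithmetic]
    [Γ.HasDetPlusMinusOne]
    {k w : ℤ} {n : ℕ} {b₁ b₂ : ℍ → ℂ} {a : ℕ → ℍ → ℂ}
    (hb₁ : MDiff b₁) (hb₂ : MDiff b₂) (hb₂0 : b₂ ≠ 0)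
    (hb₁Γ : ∀ γ ∈ Γ, b₁ ∣[k + w] γ = b₁) (hb₂Γ : ∀ γ ∈ Γ, b₂ ∣[w] γ = b₂)
    (ha : ∀ m, MDiff (a m)) (haSL : ∀ (m : ℕ) (γ : SL(2, ℤ)), a m ∣[(m : ℤ) * k] γ = a m)
    (hazero : ∀ m, IsZeroAtImInfty (a (m + 1)))
    (heq : ∀ z, b₁ z ^ n +
      ∑ m ∈ Finset.range n, a (m + 1) z * b₁ z ^ (n - 1 - m) * b₂ z ^ (m + 1) = 0) :
    ∃ F : CuspForm Γ k, ∀ z, F z * b₂ z = b₁ z := by
  obtain ⟨F, hF, hFb, hFΓ, hFeq⟩ := exists_quotient_core hb₁ hb₂ hb₂0 hb₁Γ hb₂Γ ha heq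
  refine ⟨{ toFun := F, slash_action_eq' := hFΓ, holo' := hF, zero_at_cusps' := ?_ },
    fun z => congrFun hFb z⟩
  intro c hc
  rw [Subgroup.IsArithmetic.isCusp_iff_isCusp_SL2Z] at hc
  rw [OnePoint.isZeroAt_iff_forall_SL2Z hc]
  intro δ _
  have hn : n ≠ 0 := by
    rintro rfl
    simpa using hFeq I
  have hS : Tendsto (fun z : ℍ => ∑ m ∈ Finset.range n, ‖a (m + 1) z‖) atImInfty (𝓝 0) := by
    have : Tendsto (fun z : ℍ => ∑ m ∈ Finset.range n, ‖a (m + 1) z‖) atImInfty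
        (𝓝 (∑ m ∈ Finset.range n, (0 : ℝ))) :=
      tendsto_finsetSum _ fun m _ => by simpa using (hazero m).norm
    simpa using this
  have hS1 : ∀ᶠ z in atImInfty, ∑ m ∈ Finset.range n, ‖a (m + 1) z‖ ≤ 1 :=
    hS.eventually_le_const (by norm_num)
  have hpow : Tendsto (fun z : ℍ => ‖(F ∣[k] δ) z‖ ^ n) atImInfty (𝓝 0) := by
    refine squeeze_zero' (Eventually.of_forall fun z => by positivity) ?_ hS
    filter_upwards [hS1] with z hz
    exact norm_pow_le_of_monic (a := fun m => a m z) (slash_monic haSL hFeq δ z) hz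
  have hroot := hpow.rpow_const (p := (n : ℝ)⁻¹) (Or.inr (by positivity))
  rw [Real.zero_rpow (by positivity)] at hroot
  rw [IsZeroAtImInfty, ZeroAtFilter, tendsto_zero_iff_norm_tendsto_zero]
  refine hroot.congr fun z => ?_
  exact Real.pow_rpow_inv_natCast (norm_nonneg _) hn

end Fermat.Agent.Lib.IS
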