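import Mathlib

set_option autoImplicit false
set_option linter.style.haveILetI false

namespace Fermat.Agent.Lib.IS

/-- An element of a domain `B ⊇ A` which is a fraction of elements of the integrally closed
domain `A` and is integral over `A` lies in `A`. -/
theorem exists_algebraMap_eq_of_isIntegral_of_mul_eq {A B : Type*} [CommRing A] [IsDomain A]
    [IsIntegrallyClosed A] [CommRing B] [IsDomain B] [Algebra A B] [FaithfulSMul A B]
    (x : B) (h g : A) (hh : h ≠ 0) (hx : algebraMap A B h * x = algebraMap A B g)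
    (hint : IsIntegral A x) : ∃ y : A, algebraMap A B y = x := by
  let K := FractionRing A
  let L := FractionRing B
  letI : Algebra K L := FractionRing.liftAlgebra A L
  haveI : IsScalarTower A K L := FractionRing.isScalarTower_liftAlgebra A L
  have hinjAB : Function.Injective (algebraMap A B) := FaithfulSMul.algebraMap_injective A B
  have hhK : algebraMap A K h ≠ 0 := by
    simpa using (map_ne_zero_iff _ (IsFractionRing.injective A K)).2 hh
  let z : K := algebraMap A K g / algebraMap A K h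
  have hz : algebraMap K L z = algebraMap B L x := by
    have h1 : algebraMap K L (algebraMap A K h) * algebraMap K L z
        = algebraMap K L (algebraMap A K h) * algebraMap B L x := by
      rw [← map_mul, mul_div_cancel₀ _ hhK, ← IsScalarTower.algebraMap_apply,
        ← IsScalarTower.algebraMap_apply, IsScalarTower.algebraMap_apply A B L g,
        IsScalarTower.algebraMap_apply A B L h, ← hx, map_mul]
    exact mul_left_cancel₀ ((map_ne_zero_iff _ (algebraMap K L).injective).2 hhK) h1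
  have hzint : IsIntegral A z := by
    have h2 : IsIntegral A (algebraMap K L z) := by
      rw [hz]
      exact hint.algebraMap
    exact (isIntegral_algebraMap_iff (algebraMap K L).injective).1 h2
  obtain ⟨y, hy⟩ := IsIntegrallyClosed.isIntegral_iff.1 hzint
  refine ⟨y, ?_⟩
  have h3 : y * h = g := by
    apply IsFractionRing.injective A K
    rw [map_mul, hy, div_mul_cancel₀ _ hhK]
  have h4 : algebraMap A B h * algebraMap A B y = algebraMap A B h * x := by
    rw [hx, ← map_mul, mul_comm, h3]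
  exact mul_left_cancel₀ ((map_ne_zero_iff _ hinjAB).2 hh) h4

open PowerSeries

/-- Power series over `ℂ` with integer coefficients. -/
noncomputable def intSeries : Subring ℂ⟦X⟧ := (PowerSeries.map (Int.castRingHom ℂ)).range

/-- The `ℂ`-subalgebra of `ℂ⟦X⟧` generated (= spanned) by the series with integer coefficients. -/
noncomputable def spanInt : Subalgebra ℂ ℂ⟦X⟧ := Algebra.adjoin ℂ (intSeries : Set ℂ⟦X⟧)

theorem mem_intSeries_iff {A : ℂ⟦X⟧} : A ∈ intSeries ↔ ∀ n, ∃ m : ℤ, coeff n A = (m : ℂ) := by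
  constructor
  · rintro ⟨F, rfl⟩ n
    exact ⟨coeff n F, by simp⟩
  · intro h
    choose m hm using h
    exact ⟨PowerSeries.mk m, by ext n; simp [hm]⟩

theorem intSeries_le_spanInt {A : ℂ⟦X⟧} (hA : A ∈ intSeries) : A ∈ spanInt :=
  Algebra.subset_adjoin hA

theorem spanInt_toSubmodule :
    Subalgebra.toSubmodule spanInt = Submodule.span ℂ (intSeries : Set ℂ⟦X⟧) := by
  unfold spanInt
  rw [Algebra.adjoin_eq_span]
  congr 1
  exact congrArg _ (Submonoid.closure_eq intSeries.toSubmonoid)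

/-- Apply a `ℚ`-linear functional coefficientwise. -/
noncomputable def coeffwise (φ : ℂ →ₗ[ℚ] ℚ) : ℂ⟦X⟧ →ₗ[ℚ] ℚ⟦X⟧ where
  toFun A := PowerSeries.mk fun n => φ (coeff n A)
  map_add' A B := by ext n; simp
  map_smul' c A := by ext n; simp

@[simp] theorem coeff_coeffwise (φ : ℂ →ₗ[ℚ] ℚ) (A : ℂ⟦X⟧) (n : ℕ) :
    coeff n (coeffwise φ A) = φ (coeff n A) := by
  simp [coeffwise]

theorem coeffwise_mul_map (φ : ℂ →ₗ[ℚ] ℚ) (A : ℂ⟦X⟧) (B : ℚ⟦X⟧) :
    coeffwise φ (A * PowerSeries.map (algebraMap ℚ ℂ) B) = coeffwise φ A * B := by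
  ext n
  rw [coeff_coeffwise, coeff_mul, coeff_mul, map_sum]
  refine Finset.sum_congr rfl fun x _ => ?_
  rw [coeff_map, coeff_coeffwise, mul_comm, ← Algebra.smul_def, map_smul, smul_eq_mul, mul_comm]

theorem coeffwise_map_of_one (ψ : ℂ →ₗ[ℚ] ℚ) (h1 : ψ 1 = 1) (B : ℚ⟦X⟧) :
    coeffwise ψ (PowerSeries.map (algebraMap ℚ ℂ) B) = B := by
  ext n
  rw [coeff_coeffwise, coeff_map, Algebra.algebraMap_eq_smul_one, map_smul, h1, smul_eq_mul,
    mul_one]

/-- Coefficientwise functionals send `spanInt` to series with bounded denominators. -/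
theorem exists_int_smul_coeffwise {A : ℂ⟦X⟧} (hA : A ∈ spanInt) (φ : ℂ →ₗ[ℚ] ℚ) :
    ∃ M : ℤ, M ≠ 0 ∧ ∃ F : ℤ⟦X⟧,
      PowerSeries.C (M : ℚ) * coeffwise φ A = PowerSeries.map (Int.castRingHom ℚ) F := by
  have hA' : A ∈ Submodule.span ℂ (intSeries : Set ℂ⟦X⟧) := by
    rw [← spanInt_toSubmodule]; exact hA
  clear hA
  induction hA' using Submodule.span_induction generalizing φ with
  | mem A hA =>
    obtain ⟨F, rfl⟩ := hA
    refine ⟨(φ 1).den, by exact_mod_cast (φ 1).den_nz, PowerSeries.C (φ 1).num * F, ?_⟩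
    ext n
    rw [coeff_C_mul, coeff_coeffwise, coeff_map, coeff_map, coeff_C_mul]
    have h1 : ((Int.castRingHom ℂ) (coeff n F) : ℂ) = ((coeff n F : ℤ) : ℚ) • (1 : ℂ) := by
      rw [Algebra.smul_def]; simp
    rw [h1, map_smul, smul_eq_mul]
    have h2 : (((φ 1).den : ℤ) : ℚ) * φ 1 = (φ 1).num := by
      have := Rat.den_mul_eq_num (φ 1)
      exact_mod_cast this
    simp only [eq_intCast, Int.cast_mul]
    linear_combination ((coeff n F : ℤ) : ℚ) * h2
  | zero => exact ⟨1, one_ne_zero, 0, by simp⟩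
  | add A B _ _ hA hB =>
    obtain ⟨M₁, hM₁, F₁, h₁⟩ := hA φ
    obtain ⟨M₂, hM₂, F₂, h₂⟩ := hB φ
    refine ⟨M₁ * M₂, mul_ne_zero hM₁ hM₂, PowerSeries.C M₂ * F₁ + PowerSeries.C M₁ * F₂, ?_⟩
    rw [map_add, map_add, map_mul, map_mul, ← h₁, ← h₂, PowerSeries.map_C, PowerSeries.map_C]
    simp only [Int.cast_mul, map_mul, eq_intCast]
    ring
  | smul c A _ hA =>
    obtain ⟨M, hM, F, h⟩ := hA (φ.comp ((LinearMap.mulLeft ℂ c).restrictScalars ℚ))
    refine ⟨M, hM, F, ?_⟩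
    rw [← h]
    congr 1

theorem exists_common_denominator (b : ℕ → ℚ⟦X⟧)
    (hb : ∀ i, ∃ M : ℤ, M ≠ 0 ∧ ∃ F : ℤ⟦X⟧,
      PowerSeries.C (M : ℚ) * b i = PowerSeries.map (Int.castRingHom ℚ) F) (n : ℕ) :
    ∃ M : ℤ, M ≠ 0 ∧ ∀ i < n, ∃ F : ℤ⟦X⟧,
      PowerSeries.C (M : ℚ) * b i = PowerSeries.map (Int.castRingHom ℚ) F := by
  induction n with
  | zero => exact ⟨1, one_ne_zero, fun i hi => absurd hi (Nat.not_lt_zero i)⟩
  | succ n ih =>
    obtain ⟨M, hM, h⟩ := ih
    obtain ⟨M', hM', F', h'⟩ := hb n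
    refine ⟨M * M', mul_ne_zero hM hM', fun i hi => ?_⟩
    rcases Nat.lt_succ_iff_lt_or_eq.1 hi with hi | rfl
    · obtain ⟨F, hF⟩ := h i hi
      refine ⟨PowerSeries.C M' * F, ?_⟩
      rw [map_mul, ← hF, PowerSeries.map_C]
      simp only [Int.cast_mul, map_mul, eq_intCast]
      ring
    · refine ⟨PowerSeries.C M * F', ?_⟩
      rw [map_mul, ← h', PowerSeries.map_C]
      simp only [Int.cast_mul, map_mul, eq_intCast]
      ring

instance : FaithfulSMul ℤ⟦X⟧ ℚ⟦X⟧ :=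
  (faithfulSMul_iff_algebraMap_injective _ _).2
    (PowerSeries.map_injective _ (algebraMap ℤ ℚ).injective_int)

theorem algebraMap_int_rat_eq :
    (algebraMap ℤ⟦X⟧ ℚ⟦X⟧) = PowerSeries.map (Int.castRingHom ℚ) := rfl

/-- Integrality over `ℤ⟦X⟧` of an integer multiple, from a monic equation with
bounded-denominator coefficients. -/
theorem isIntegral_of_monic_equation (fq : ℚ⟦X⟧) (n : ℕ) (b : ℕ → ℚ⟦X⟧)
    (hb : ∀ i, ∃ M : ℤ, M ≠ 0 ∧ ∃ F : ℤ⟦X⟧,
      PowerSeries.C (M : ℚ) * b i = PowerSeries.map (Int.castRingHom ℚ) F)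
    (heq : fq ^ n + ∑ i ∈ Finset.range n, b i * fq ^ i = 0) :
    ∃ M : ℤ, M ≠ 0 ∧ IsIntegral ℤ⟦X⟧ (PowerSeries.C (M : ℚ) * fq) := by
  obtain ⟨M, hM, h⟩ := exists_common_denominator b hb n
  choose! F hF using h
  refine ⟨M, hM, ?_⟩
  let P : Polynomial ℤ⟦X⟧ := Polynomial.X ^ n +
    ∑ i ∈ Finset.range n, Polynomial.C (PowerSeries.C (M ^ (n - 1 - i)) * F i) * Polynomial.X ^ i
  have hdeg : (∑ i ∈ Finset.range n,
      Polynomial.C (PowerSeries.C (M ^ (n - 1 - i)) * F i) * Polynomial.X ^ i).degree < (n : WithBot ℕ) := by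
    refine (Polynomial.degree_sum_le _ _).trans_lt ?_
    rw [Finset.sup_lt_iff (by exact WithBot.bot_lt_coe n)]
    intro i hi
    refine (Polynomial.degree_C_mul_X_pow_le i _).trans_lt ?_
    exact_mod_cast Finset.mem_range.1 hi
  refine ⟨P, Polynomial.monic_X_pow_add hdeg, ?_⟩
  simp only [P, Polynomial.eval₂_add, Polynomial.eval₂_pow, Polynomial.eval₂_X,
    Polynomial.eval₂_finsetSum, Polynomial.eval₂_mul, Polynomial.eval₂_C]
  have key : ∀ i ∈ Finset.range n,
      (algebraMap ℤ⟦X⟧ ℚ⟦X⟧) (PowerSeries.C (M ^ (n - 1 - i)) * F i) *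
        (PowerSeries.C (M : ℚ) * fq) ^ i = PowerSeries.C (M : ℚ) ^ n * (b i * fq ^ i) := by
    intro i hi
    have hi' := Finset.mem_range.1 hi
    rw [algebraMap_int_rat_eq, map_mul, ← hF i hi', PowerSeries.map_C, mul_pow]
    have hn : n = (n - 1 - i) + 1 + i := by omega
    have : PowerSeries.C (M : ℚ) ^ n
        = PowerSeries.C (M : ℚ) ^ (n - 1 - i) * PowerSeries.C (M : ℚ) * PowerSeries.C (M : ℚ) ^ i := by
      conv_lhs => rw [hn]
      rw [pow_add, pow_add, pow_one]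
    rw [this]
    simp only [eq_intCast, Int.cast_pow, map_pow]
    ring
  rw [Finset.sum_congr rfl key, ← Finset.mul_sum, mul_pow, ← mul_add, heq, mul_zero]

/-- **Bounded denominators.** A power series with rational coefficients which is a fraction of
elements of `spanInt` and is integral over `spanInt` has bounded denominators. -/
theorem exists_int_mul_mem_intSeries (f : ℂ⟦X⟧) (hf : ∀ n, ∃ r : ℚ, coeff n f = (r : ℂ))
    (D : ℂ⟦X⟧) (hD : D ∈ spanInt) (hD0 : D ≠ 0) (hDf : D * f ∈ spanInt)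
    (hint : IsIntegral spanInt f) :
    ∃ M : ℤ, M ≠ 0 ∧ PowerSeries.C (M : ℂ) * f ∈ intSeries := by
  choose r hr using hf
  let fq : ℚ⟦X⟧ := PowerSeries.mk r
  have hfq : PowerSeries.map (algebraMap ℚ ℂ) fq = f := by
    ext n; simp [fq, hr]
  -- the fraction
  obtain ⟨n0, hn0⟩ : ∃ n, coeff n D ≠ 0 := by
    by_contra hcon
    push Not at hcon
    exact hD0 (by ext n; simpa using hcon n)
  obtain ⟨φ, hφ⟩ : ∃ φ : ℂ →ₗ[ℚ] ℚ, φ (coeff n0 D) ≠ 0 := by
    by_contra hcon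
    push Not at hcon
    exact hn0 ((Module.forall_dual_apply_eq_zero_iff ℚ _).1 hcon)
  have hφD : coeffwise φ D ≠ 0 := by
    intro h0
    apply hφ
    rw [← coeff_coeffwise, h0, map_zero]
  have hmul : coeffwise φ (D * f) = coeffwise φ D * fq := by
    rw [← hfq, coeffwise_mul_map]
  obtain ⟨M₁, hM₁, h, hh⟩ := exists_int_smul_coeffwise hD φ
  obtain ⟨M₂, hM₂, g, hg⟩ := exists_int_smul_coeffwise hDf φ
  have hh0 : h ≠ 0 := by
    rintro rfl
    rw [map_zero] at hh
    rcases mul_eq_zero.1 hh with h1 | h1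
    · rw [map_eq_zero_iff _ PowerSeries.C_injective] at h1
      exact hM₁ (by exact_mod_cast h1)
    · exact hφD h1
  -- integrality
  obtain ⟨ψ, hψ⟩ : ∃ ψ : ℂ →ₗ[ℚ] ℚ, ψ 1 = 1 := by
    obtain ⟨ψ₀, hψ₀⟩ : ∃ ψ₀ : ℂ →ₗ[ℚ] ℚ, ψ₀ 1 ≠ 0 := by
      by_contra hcon
      push Not at hcon
      exact one_ne_zero ((Module.forall_dual_apply_eq_zero_iff ℚ (1 : ℂ)).1 hcon)
    exact ⟨(ψ₀ 1)⁻¹ • ψ₀, by simp [hψ₀]⟩
  obtain ⟨p, hp, hpf⟩ := hint
  have hsum : f ^ p.natDegree + ∑ i ∈ Finset.range p.natDegree,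
      ((p.coeff i : spanInt) : ℂ⟦X⟧) * f ^ i = 0 := by
    rw [hp.as_sum] at hpf
    simp only [Polynomial.eval₂_add, Polynomial.eval₂_pow, Polynomial.eval₂_X,
      Polynomial.eval₂_finsetSum, Polynomial.eval₂_mul, Polynomial.eval₂_C] at hpf
    exact hpf
  have hsumq : fq ^ p.natDegree + ∑ i ∈ Finset.range p.natDegree,
      coeffwise ψ ((p.coeff i : spanInt) : ℂ⟦X⟧) * fq ^ i = 0 := by
    have := congrArg (coeffwise ψ) hsum
    rw [map_add, map_sum, map_zero, ← hfq, ← map_pow, coeffwise_map_of_one ψ hψ] at this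
    rw [← this]
    congr 1
    refine Finset.sum_congr rfl fun i _ => ?_
    rw [← map_pow, coeffwise_mul_map]
  obtain ⟨M, hM, hMint⟩ := isIntegral_of_monic_equation fq p.natDegree
    (fun i => coeffwise ψ ((p.coeff i : spanInt) : ℂ⟦X⟧))
    (fun i => exists_int_smul_coeffwise (p.coeff i).2 ψ) hsumq
  obtain ⟨y, hy⟩ := exists_algebraMap_eq_of_isIntegral_of_mul_eq (A := ℤ⟦X⟧) (B := ℚ⟦X⟧)
    (PowerSeries.C (M : ℚ) * fq) (PowerSeries.C M₂ * h) (PowerSeries.C (M * M₁) * g)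
    (mul_ne_zero (by
      rw [Ne, map_eq_zero_iff _ PowerSeries.C_injective]; exact hM₂) hh0)
    (by
      rw [algebraMap_int_rat_eq, map_mul, map_mul, ← hh, ← hg, hmul, PowerSeries.map_C,
        PowerSeries.map_C]
      simp only [eq_intCast, Int.cast_mul, map_mul]
      ring) hMint
  refine ⟨M, hM, y, ?_⟩
  rw [algebraMap_int_rat_eq] at hy
  have := congrArg (PowerSeries.map (algebraMap ℚ ℂ)) hy
  rw [map_mul, hfq, PowerSeries.map_C] at this
  rw [← (by simp : (algebraMap ℚ ℂ) (M : ℚ) = (M : ℂ)), ← this]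
  ext n
  simp

theorem mem_spanInt_iff {A : ℂ⟦X⟧} : A ∈ spanInt ↔
    A ∈ Submodule.span ℂ (Set.range (PowerSeries.map (Int.castRingHom ℂ))) := by
  rw [← Subalgebra.mem_toSubmodule, spanInt_toSubmodule]
  rfl

/-- The exact form consumed by the assembly of the integral structure theorem. -/
theorem bounded_denom (P : PowerSeries ℂ) (hP : ∀ n, ∃ r : ℚ, (r : ℂ) = P.coeff n)
    (D Nn : PowerSeries ℂ)
    (hD : D ∈ Submodule.span ℂ (Set.range (PowerSeries.map (Int.castRingHom ℂ)))) (hD0 : D ≠ 0)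
    (hN : Nn ∈ Submodule.span ℂ (Set.range (PowerSeries.map (Int.castRingHom ℂ))))
    (hrel : D * P = Nn)
    (n : ℕ) (c : ℕ → PowerSeries ℂ)
    (hc : ∀ m, c m ∈ Submodule.span ℂ (Set.range (PowerSeries.map (Int.castRingHom ℂ))))
    (hmon : P ^ n + ∑ m ∈ Finset.range n, c (m + 1) * P ^ (n - 1 - m) = 0) :
    ∃ M : ℤ, M ≠ 0 ∧ ∀ j, ∃ z : ℤ, (z : ℂ) = (M : ℂ) * P.coeff j := by
  have hint : IsIntegral spanInt P := by
    let c' : ℕ → spanInt := fun m => ⟨c m, mem_spanInt_iff.2 (hc m)⟩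
    let p : Polynomial spanInt := Polynomial.X ^ n +
      ∑ m ∈ Finset.range n, Polynomial.C (c' (m + 1)) * Polynomial.X ^ (n - 1 - m)
    have hdeg : (∑ m ∈ Finset.range n,
        Polynomial.C (c' (m + 1)) * Polynomial.X ^ (n - 1 - m)).degree < (n : WithBot ℕ) := by
      refine (Polynomial.degree_sum_le _ _).trans_lt ?_
      rw [Finset.sup_lt_iff (by exact WithBot.bot_lt_coe n)]
      intro i hi
      refine (Polynomial.degree_C_mul_X_pow_le _ _).trans_lt ?_
      have := Finset.mem_range.1 hi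
      exact_mod_cast (by omega : n - 1 - i < n)
    refine ⟨p, Polynomial.monic_X_pow_add hdeg, ?_⟩
    simp only [p, Polynomial.eval₂_add, Polynomial.eval₂_pow, Polynomial.eval₂_X,
      Polynomial.eval₂_finsetSum, Polynomial.eval₂_mul, Polynomial.eval₂_C]
    exact hmon
  obtain ⟨M, hM, hMP⟩ := exists_int_mul_mem_intSeries P
    (fun n => (hP n).imp fun r hr => hr.symm) D (mem_spanInt_iff.2 hD) hD0
    (by rw [hrel]; exact mem_spanInt_iff.2 hN) hint
  refine ⟨M, hM, fun j => ?_⟩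
  obtain ⟨z, hz⟩ := mem_intSeries_iff.1 hMP j
  exact ⟨z, by rw [← hz, coeff_C_mul]⟩

end Fermat.Agent.Lib.IS
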