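import Mathlib

open UpperHalfPlane ModularForm SlashInvariantForm
open scoped ModularForm Topology Filter Manifold MatrixGroups

namespace Fermat.Agent.Lib.IS

noncomputable section

variable {𝒢 ℋ : Subgroup (GL (Fin 2) ℝ)}

local notation "𝒬" => ℋ ⧸ (𝒢.subgroupOf ℋ)

section quot

variable [𝒢.HasDetPlusMinusOne] [ℋ.HasDetPlusMinusOne]

lemma quotientFunc_mul {a b : ℤ} (f : ModularForm 𝒢 a) (g : ModularForm 𝒢 b) (q : 𝒬) :
    quotientFunc (f.mul g) q = quotientFunc f q * quotientFunc g q := by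
  induction q using Quotient.inductionOn with
  | h r =>
    simp only [quotientFunc_mk, ModularForm.coe_mul, ModularForm.mul_slash]
    rw [Subgroup.HasDetPlusMinusOne.abs_det (inv_mem r.2), one_smul]

lemma quotientFunc_pow {w : ℤ} (θ : ModularForm 𝒢 w) (n : ℕ) (q : 𝒬) :
    quotientFunc (θ.pow n) q = quotientFunc θ q ^ n := by
  induction q using Quotient.inductionOn with
  | h r =>
    simp only [quotientFunc_mk, ModularForm.coe_pow]
    have := ModularForm.prod_slash (k := w) (g := (r : GL (Fin 2) ℝ)⁻¹) (f := fun _ : ℕ ↦ ⇑θ)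
      (s := Finset.range n)
    simp only [Finset.prod_const, Finset.card_range] at this
    rw [mul_comm, this, Subgroup.HasDetPlusMinusOne.abs_det (inv_mem r.2), one_zpow, one_smul]

end quot

section det

variable [ℋ.HasDetPlusMinusOne]

lemma exists_form_det {n : Type} [Fintype n] [DecidableEq n] (a b : n → ℤ)
    (M : Matrix n n (ℍ → ℂ)) (hM : ∀ i j, ∃ G : ModularForm ℋ (a i + b j), ⇑G = M i j) :
    ∃ G : ModularForm ℋ (∑ i, a i + ∑ j, b j), ⇑G = M.det := by
  choose G hG using hM
  have hm : ∀ σ : Equiv.Perm n, ∑ i, a i + ∑ j, b j = ∑ i ∈ Finset.univ, (a (σ i) + b i) := by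
    intro σ
    rw [Finset.sum_add_distrib, Equiv.sum_comp σ a]
  refine ⟨∑ σ : Equiv.Perm n, ((Equiv.Perm.sign σ : ℤˣ) : ℤ) •
    ModularForm.prod (s := Finset.univ) _ (hm σ) (fun i ↦ G (σ i) i), ?_⟩
  rw [Matrix.det_apply]
  ext τ
  simp [hG, Units.smul_def]

end det

section main

variable [𝒢.HasDetPlusMinusOne] [ℋ.HasDetPlusMinusOne] [𝒢.IsFiniteRelIndex ℋ]

omit [𝒢.HasDetPlusMinusOne] [ℋ.HasDetPlusMinusOne] [𝒢.IsFiniteRelIndex ℋ] in
lemma mdiff_quotientFunc {k : ℤ} (f : ModularForm 𝒢 k) (q : 𝒬) : MDiff (quotientFunc f q) := by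
  induction q using Quotient.inductionOn with
  | h r => exact (ModularForm.translate f (r : GL (Fin 2) ℝ)⁻¹).holo'

/-- Pure commutative algebra: Cramer's rule for the Vandermonde/Hankel system. -/
lemma det_vandermonde_smul_eq_zero {R : Type*} [CommRing R] {d : ℕ} (v φ : Fin d → R) :
    let Vd := Matrix.vandermonde v
    let H := Vd.transpose * Vd
    let t := Vd.transpose.mulVec φ
    Vd.det • (H.det • φ - Vd.mulVec (H.cramer t)) = 0 := by
  intro Vd H t
  have h1 : Vd.transpose.mulVec (H.det • φ - Vd.mulVec (H.cramer t)) = 0 := by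
    rw [Matrix.mulVec_sub, Matrix.mulVec_smul, Matrix.mulVec_mulVec, Matrix.mulVec_cramer, sub_self]
  have h2 := congrArg (Vd.transpose.adjugate.mulVec) h1
  rw [Matrix.mulVec_mulVec, Matrix.adjugate_mul, Matrix.smul_mulVec, Matrix.one_mulVec,
    Matrix.mulVec_zero, Matrix.det_transpose] at h2
  exact h2

theorem exists_linear_rel {w k : ℤ} (θ : ModularForm 𝒢 w)
    (hθ : Function.Injective (fun q : 𝒬 ↦ quotientFunc θ q)) (f : ModularForm 𝒢 k) :
    ∃ (W : ℤ) (D : ModularForm ℋ W)
      (b : (m : Fin (Nat.card 𝒬)) → ModularForm ℋ (k + W - w * m)),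
      D ≠ 0 ∧ ∀ τ, D τ * f τ = ∑ m, b m τ * θ τ ^ (m : ℕ) := by
  classical
  let := Fintype.ofFinite 𝒬
  set d := Nat.card 𝒬 with hd
  let e : 𝒬 ≃ Fin d := Finite.equivFin 𝒬
  let v : Fin d → (ℍ → ℂ) := fun i ↦ quotientFunc θ (e.symm i)
  let φ : Fin d → (ℍ → ℂ) := fun i ↦ quotientFunc f (e.symm i)
  let Vd := Matrix.vandermonde v
  let H := Vd.transpose * Vd
  let t := Vd.transpose.mulVec φ
  let a : Fin d → ℤ := fun i ↦ w * i
  have hv : ∀ i, MDiff (v i) := fun i ↦ mdiff_quotientFunc θ _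
  have hφ : ∀ i, MDiff (φ i) := fun i ↦ mdiff_quotientFunc f _
  -- entries of `H` are level-one forms
  have hH : ∀ i j, ∃ G : ModularForm ℋ (a i + a j), ⇑G = H i j := by
    intro i j
    refine ⟨ModularForm.mcast (by simp only [a]; push_cast; ring)
      (ModularForm.trace ℋ (θ.pow (i + j))), ?_⟩
    rw [ModularForm.coe_mcast, ModularForm.coe_trace]
    simp only [H, Vd, Matrix.mul_apply, Matrix.transpose_apply, Matrix.vandermonde_apply, v,
      quotientFunc_pow, pow_add]
    exact (Equiv.sum_comp e.symm (fun q ↦ quotientFunc θ q ^ (i : ℕ) * quotientFunc θ q ^ (j : ℕ))).symm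
  have ht : ∀ i, ∃ G : ModularForm ℋ (a i + k), ⇑G = t i := by
    intro i
    refine ⟨ModularForm.mcast (by simp only [a]; ring)
      (ModularForm.trace ℋ ((θ.pow i).mul f)), ?_⟩
    rw [ModularForm.coe_mcast, ModularForm.coe_trace]
    simp only [t, Vd, Matrix.mulVec, dotProduct, Matrix.transpose_apply, Matrix.vandermonde_apply,
      v, φ, quotientFunc_pow, quotientFunc_mul]
    exact (Equiv.sum_comp e.symm (fun q ↦ quotientFunc θ q ^ (i : ℕ) * quotientFunc f q)).symm
  obtain ⟨D, hD⟩ := exists_form_det a a H hH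
  have hx : ∀ m : Fin d, ∃ G : ModularForm ℋ (k + (∑ i, a i + ∑ j, a j) - w * m),
      ⇑G = H.cramer t m := by
    intro m
    obtain ⟨G, hG⟩ := exists_form_det (ℋ := ℋ) a (Function.update a m k) (H.updateCol m t) (by
      intro i j
      rw [Matrix.updateCol_apply]
      by_cases hj : j = m
      · subst hj
        rw [Function.update_self, if_pos rfl]
        exact ht i
      · rw [Function.update_of_ne hj, if_neg hj]
        exact hH i j)
    refine ⟨ModularForm.mcast ?_ G, by rw [ModularForm.coe_mcast, hG, Matrix.cramer_apply]⟩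
    rw [Finset.sum_update_of_mem (Finset.mem_univ m), Finset.sdiff_singleton_eq_erase,
      ← Finset.add_sum_erase Finset.univ a (Finset.mem_univ m)]
    simp only [a]
    ring
  choose b hb using hx
  -- the Vandermonde determinant is a nonzero holomorphic function
  have hVd_ne : Vd.det ≠ 0 := by
    simp only [Vd, Matrix.det_vandermonde]
    intro h0
    rw [UpperHalfPlane.prod_eq_zero_iff (fun i _ ↦ .prod fun j _ ↦ (hv j).sub (hv i))] at h0
    obtain ⟨i, -, hi⟩ := h0
    rw [UpperHalfPlane.prod_eq_zero_iff (fun j _ ↦ (hv j).sub (hv i))] at hi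
    obtain ⟨j, hj, hij⟩ := hi
    have : e.symm j = e.symm i := hθ (sub_eq_zero.mp hij)
    rw [Finset.mem_Ioi] at hj
    exact hj.ne' (e.symm.injective this)
  have hVd_mdiff : MDiff Vd.det := by
    simp only [Vd, Matrix.det_vandermonde]
    exact .prod fun i _ ↦ .prod fun j _ ↦ (hv j).sub (hv i)
  have hHdet : H.det = Vd.det * Vd.det := by
    simp only [H, Matrix.det_mul, Matrix.det_transpose]
  refine ⟨_, D, b, ?_, ?_⟩
  · intro h0
    have : H.det = 0 := by rw [← hD, h0]; rfl
    rw [hHdet, UpperHalfPlane.mul_eq_zero_iff hVd_mdiff hVd_mdiff] at this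
    exact hVd_ne (this.elim id id)
  · have key := det_vandermonde_smul_eq_zero v φ
    have key' := congrFun key (e ⟦1⟧)
    simp only [Pi.smul_apply, Pi.sub_apply, Pi.zero_apply, smul_eq_mul] at key'
    have hy : MDiff (H.det * φ (e ⟦1⟧) - Vd.mulVec (H.cramer t) (e ⟦1⟧)) := by
      refine .sub ((hD ▸ D.holo').mul (hφ _)) ?_
      simp only [Matrix.mulVec, dotProduct]
      refine .sum fun j _ ↦ .mul ?_ (hb j ▸ (b j).holo')
      simp only [Vd, Matrix.vandermonde_apply]
      exact (hv _).pow _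
    rw [UpperHalfPlane.mul_eq_zero_iff hVd_mdiff hy] at key'
    have h0 := key'.resolve_left hVd_ne
    intro τ
    have h1 := congrFun h0 τ
    simp only [Pi.sub_apply, Pi.mul_apply, Pi.zero_apply, sub_eq_zero, Matrix.mulVec, dotProduct,
      Finset.sum_apply, Vd, Matrix.vandermonde_apply, Pi.pow_apply, φ, v, Equiv.symm_apply_apply,
      quotientFunc_mk, inv_one, OneMemClass.coe_one, SlashAction.slash_one] at h1
    rw [hD, h1]
    refine Finset.sum_congr rfl fun m _ ↦ ?_
    rw [hb, mul_comm]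

end main

end

end Fermat.Agent.Lib.IS
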