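import Mathlib

open UpperHalfPlane ModularForm SlashInvariantForm
open scoped ModularForm Topology Filter Manifold MatrixGroups

namespace Fermat.Agent.Lib.IS

noncomputable section

variable {𝒢 ℋ : Subgroup (GL (Fin 2) ℝ)} {F : Type*} (f : F) [FunLike F ℍ ℂ] {k : ℤ}

local notation "𝒬" => ℋ ⧸ (𝒢.subgroupOf ℋ)

section SIF

variable [SlashInvariantFormClass F 𝒢 k]

variable (ℋ) [𝒢.IsFiniteRelIndex ℋ]

/-- The `j`-th elementary symmetric function of the translates of `f`. -/
def esymmFun (j : ℕ) : ℍ → ℂ :=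
  let := Fintype.ofFinite 𝒬
  ∑ s ∈ Finset.powersetCard j (Finset.univ : Finset 𝒬), ∏ q ∈ s, quotientFunc f q

lemma esymmFun_slash [ℋ.HasDetPlusMinusOne] (j : ℕ) {h : GL (Fin 2) ℝ} (hh : h ∈ ℋ) :
    esymmFun ℋ f j ∣[k * j] h = esymmFun ℋ f j := by
  let := Fintype.ofFinite 𝒬
  unfold esymmFun
  rw [SlashAction.sum_slash]
  have key : ∀ s ∈ Finset.powersetCard j (Finset.univ : Finset 𝒬),
      (∏ q ∈ s, quotientFunc f q) ∣[k * j] h =
        ∏ q ∈ (Equiv.finsetCongr (MulAction.toPerm (⟨h, hh⟩ : ℋ)⁻¹)) s, quotientFunc f q := by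
    intro s hs
    rw [Finset.mem_powersetCard] at hs
    rw [← hs.2, ModularForm.prod_slash]
    simp [quotientFunc_smul f hh, Subgroup.HasDetPlusMinusOne.abs_det hh,
      -Matrix.GeneralLinearGroup.val_det_apply, Finset.prod_map]
  rw [Finset.sum_congr rfl key]
  refine Finset.sum_equiv (Equiv.finsetCongr (MulAction.toPerm (⟨h, hh⟩ : ℋ)⁻¹))
    (g := fun s ↦ ∏ q ∈ s, quotientFunc f q) ?_ (fun _ _ ↦ rfl)
  intro s
  simp [Finset.mem_powersetCard]

lemma esymmFun_zero : esymmFun ℋ f 0 = 1 := by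
  simp [esymmFun]

/-- General polynomial identity: `∏ (x - F_q τ) = ∑ (-1)^j e_j(τ) x^(d-j)`. -/
lemma prod_sub_quotientFunc (τ : ℍ) (x : ℂ) :
    (let := Fintype.ofFinite 𝒬; ∏ q : 𝒬, (x - quotientFunc f q τ)) =
      ∑ j ∈ Finset.range (Nat.card 𝒬 + 1),
        (-1) ^ j * esymmFun ℋ f j τ * x ^ (Nat.card 𝒬 - j) := by
  let := Fintype.ofFinite 𝒬
  have h := congrArg (Polynomial.eval x) (Multiset.prod_X_sub_X_eq_sum_esymm
    ((Finset.univ : Finset 𝒬).val.map fun q ↦ quotientFunc f q τ))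
  rw [Multiset.map_map, Polynomial.eval_multiset_prod, Multiset.map_map] at h
  simp only [Function.comp_def, Polynomial.eval_sub, Polynomial.eval_X, Polynomial.eval_C,
    Multiset.card_map, Finset.card_val, Finset.card_univ, Polynomial.eval_finset_sum,
    Polynomial.eval_mul, Polynomial.eval_pow, Polynomial.eval_neg, Polynomial.eval_one,
    Finset.esymm_map_val] at h
  rw [Nat.card_eq_fintype_card]
  simp only [esymmFun, Finset.sum_apply, Finset.prod_apply]
  rw [← Finset.prod_eq_multiset_prod] at h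
  rw [h]
  refine Finset.sum_congr rfl fun j _ ↦ by ring

/-- The monic relation satisfied by `f`. -/
lemma sum_esymmFun_mul_pow_eq_zero (τ : ℍ) :
    ∑ j ∈ Finset.range (Nat.card 𝒬 + 1),
      (-1) ^ j * esymmFun ℋ f j τ * f τ ^ (Nat.card 𝒬 - j) = 0 := by
  let := Fintype.ofFinite 𝒬
  rw [← prod_sub_quotientFunc]
  refine Finset.prod_eq_zero (Finset.mem_univ (⟦1⟧ : 𝒬)) ?_
  simp

end SIF

section MF

variable (ℋ) [𝒢.IsFiniteRelIndex ℋ] [ℋ.HasDetPlusMinusOne]

/-- The `j`-th elementary symmetric function of the translates of a modular form, as a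
modular form of weight `k * j` for the bigger group. -/
def esymmForm [ModularFormClass F 𝒢 k] (j : ℕ) : ModularForm ℋ (k * j) where
  toFun := esymmFun ℋ f j
  slash_action_eq' _ hh := esymmFun_slash ℋ f j hh
  holo' := by
    let := Fintype.ofFinite 𝒬
    exact .sum fun s _ ↦ .prod (Quotient.forall.mpr fun ⟨r, hr⟩ _ ↦ (ModularForm.translate f r⁻¹).holo')
  bdd_at_cusps' h γ := by
    rintro rfl
    let := Fintype.ofFinite 𝒬
    simp_rw [esymmFun, IsBoundedAtImInfty, Filter.BoundedAtFilter]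
    rw [SlashAction.sum_slash, Finset.sum_fn]
    refine .fun_sum fun s hs ↦ ?_
    rw [Finset.mem_powersetCard] at hs
    rw [← hs.2, ModularForm.prod_slash]
    apply Asymptotics.IsBigO.const_smul_left
    rw [show (1 : ℍ → ℝ) = (fun x ↦ ∏ i ∈ s, 1) by ext; simp, Finset.prod_fn]
    refine .finsetProd (Quotient.forall.mpr fun ⟨r, hr⟩ _ ↦ (ModularForm.translate f _).bdd_at_cusps' ?_ γ rfl)
    simpa using h.of_isFiniteRelIndex_conj hr

@[simp] lemma coe_esymmForm [ModularFormClass F 𝒢 k] (j : ℕ) :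
    ⇑(esymmForm ℋ f j) = esymmFun ℋ f j := rfl

/-- For a cusp form and `0 < j`, the elementary symmetric function is a cusp form. -/
def esymmCuspForm [CuspFormClass F 𝒢 k] (j : ℕ) (hj : 0 < j) : CuspForm ℋ (k * j) where
  __ := esymmForm ℋ f j
  zero_at_cusps' h γ := by
    rintro rfl
    let := Fintype.ofFinite 𝒬
    simp_rw [ModularForm.toFun_eq_coe, coe_esymmForm, esymmFun, IsZeroAtImInfty,
      Filter.ZeroAtFilter]
    rw [SlashAction.sum_slash, Finset.sum_fn]
    rw [show (0 : ℂ) = ∑ s ∈ Finset.powersetCard j (Finset.univ : Finset 𝒬), 0 by simp]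
    refine tendsto_finsetSum _ fun s hs ↦ ?_
    rw [Finset.mem_powersetCard] at hs
    rw [← hs.2, ModularForm.prod_slash]
    have hne : s.Nonempty := Finset.card_pos.mp (hs.2 ▸ hj)
    have h0 : Filter.Tendsto (fun τ ↦ ∏ q ∈ s, (quotientFunc f q ∣[k] γ) τ) atImInfty (𝓝 0) := by
      rw [show (0 : ℂ) = ∏ q ∈ s, (0 : ℂ) by
        rw [Finset.prod_const, zero_pow (Finset.card_ne_zero.mpr hne)]]
      refine tendsto_finsetProd _ (Quotient.forall.mpr fun ⟨r, hr⟩ _ ↦
        (CuspForm.translate f _).zero_at_cusps' ?_ γ rfl)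
      simpa using h.of_isFiniteRelIndex_conj hr
    have := h0.const_smul (|(γ.det : ℝ)| ^ ((s.card : ℤ) - 1))
    rw [smul_zero] at this
    refine this.congr fun τ ↦ ?_
    simp [Finset.prod_apply]

end MF

end

end Fermat.Agent.Lib.IS
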