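import Fermat.Agent.Lib.IS.Nice
import Fermat.Agent.Lib.IS.Esymm
import Fermat.Agent.Lib.IS.Cramer
import Fermat.Agent.Lib.IS.Analytic

open UpperHalfPlane ModularForm SlashInvariantForm
open scoped ModularForm Topology Filter Manifold MatrixGroups

namespace Fermat.Agent.Lib.IS

noncomputable section

/-- Restriction of a modular form to a smaller group. -/
def restrictForm {𝒢 ℋ : Subgroup (GL (Fin 2) ℝ)} (h : 𝒢 ≤ ℋ) {k : ℤ} (g : ModularForm ℋ k) :
    ModularForm 𝒢 k where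
  toFun := g
  slash_action_eq' γ hγ := g.slash_action_eq' γ (h hγ)
  holo' := g.holo'
  bdd_at_cusps' hc := g.bdd_at_cusps' (hc.mono h)

@[simp] lemma coe_restrictForm {𝒢 ℋ : Subgroup (GL (Fin 2) ℝ)} (h : 𝒢 ≤ ℋ) {k : ℤ}
    (g : ModularForm ℋ k) : ⇑(restrictForm h g) = g := rfl

lemma homog_eq_ring {R : Type*} [CommRing R] {n : ℕ} (a : ℕ → R) (x b : R) :
    (x * b) ^ n + ∑ m ∈ Finset.range n, a (m + 1) * (x * b) ^ (n - 1 - m) * b ^ (m + 1) =
      b ^ n * (x ^ n + ∑ m ∈ Finset.range n, a (m + 1) * x ^ (n - 1 - m)) := by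
  rw [mul_add, Finset.mul_sum, mul_pow, mul_comm (x ^ n)]
  congr 1
  refine Finset.sum_congr rfl fun m hm => ?_
  have hm' : m < n := Finset.mem_range.mp hm
  have : b ^ n = b ^ (n - 1 - m) * b ^ (m + 1) := by
    rw [← pow_add]; congr 1; omega
  rw [this, mul_pow]
  ring

variable {𝒢 : Subgroup (GL (Fin 2) ℝ)} [𝒢.IsArithmetic] [𝒢.HasDetPlusMinusOne]

local notation "𝒬" => 𝒮ℒ ⧸ (𝒢.subgroupOf 𝒮ℒ)

/-- A level one form as a nice function. -/
def nice1 {w : ℤ} (g : ModularForm 𝒮ℒ w) : niceSubring :=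
  ⟨g, nice_of_modularForm one_mem_strictPeriods_SL g⟩

/-- The linear relation of `Cramer.lean` on `q`-expansions. -/
theorem qExpansion_linear_rel (h1 : (1 : ℝ) ∈ 𝒢.strictPeriods) {w k : ℤ} (θ : ModularForm 𝒢 w)
    (hθ : Function.Injective (fun q : 𝒬 ↦ quotientFunc θ q)) (f : ModularForm 𝒢 k) :
    ∃ (W : ℤ) (D : ModularForm 𝒮ℒ W)
      (b : (m : Fin (Nat.card 𝒬)) → ModularForm 𝒮ℒ (k + W - w * m)),
      D ≠ 0 ∧ qExpansion 1 D * qExpansion 1 f =
        ∑ m, qExpansion 1 (b m) * qExpansion 1 θ ^ (m : ℕ) := by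
  obtain ⟨W, D, b, hD, hrel⟩ := exists_linear_rel (ℋ := 𝒮ℒ) θ hθ f
  refine ⟨W, D, b, hD, ?_⟩
  have hf : Nice f := nice_of_modularForm h1 f
  have hθ' : Nice θ := nice_of_modularForm h1 θ
  have key : nice1 D * (⟨f, hf⟩ : niceSubring) =
      ∑ m, nice1 (b m) * (⟨θ, hθ'⟩ : niceSubring) ^ (m : ℕ) := by
    apply Subtype.ext
    funext τ
    simpa [nice1] using hrel τ
  have := congrArg qx key
  simp only [map_mul, map_sum, map_pow] at this
  exact this

/-- The coefficients of the monic relation. -/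
def monicCoeff {k : ℤ} {F : Type*} [FunLike F ℍ ℂ] [ModularFormClass F 𝒢 k] (f : F) (m : ℕ) :
    ModularForm 𝒮ℒ (k * m) :=
  ((-1 : ℂ) ^ m) • esymmForm 𝒮ℒ f m

omit [𝒢.HasDetPlusMinusOne] in
theorem qExpansion_monic_rel (h1 : (1 : ℝ) ∈ 𝒢.strictPeriods) {k : ℤ} {F : Type*} [FunLike F ℍ ℂ]
    [ModularFormClass F 𝒢 k] (f : F) :
    qExpansion 1 f ^ (Nat.card 𝒬) + ∑ m ∈ Finset.range (Nat.card 𝒬),
      qExpansion 1 (monicCoeff f (m + 1)) * qExpansion 1 f ^ (Nat.card 𝒬 - 1 - m) = 0 := by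
  have hf : Nice f := nice_of_modularForm h1 f
  have key : (⟨f, hf⟩ : niceSubring) ^ (Nat.card 𝒬) + ∑ m ∈ Finset.range (Nat.card 𝒬),
      nice1 (monicCoeff f (m + 1)) * (⟨f, hf⟩ : niceSubring) ^ (Nat.card 𝒬 - 1 - m) = 0 := by
    apply Subtype.ext
    funext τ
    have := sum_esymmFun_mul_pow_eq_zero 𝒮ℒ f τ
    rw [Finset.sum_range_succ'] at this
    simp only [pow_zero, esymmFun_zero, Pi.one_apply, one_mul, Nat.sub_zero] at this
    rw [add_comm] at this
    simp only [nice1, monicCoeff]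
    have h2 : ∀ j, (esymmForm 𝒮ℒ f j) τ = esymmFun 𝒮ℒ f j τ := fun _ ↦ rfl
    simpa [Nat.sub_sub, add_comm, mul_assoc, h2] using this
  have := congrArg qx key
  simp only [map_mul, map_sum, map_pow, map_add, map_zero] at this
  exact this

omit [𝒢.HasDetPlusMinusOne] in
theorem monicCoeff_coeff_zero {k : ℤ} {F : Type*} [FunLike F ℍ ℂ]
    [CuspFormClass F 𝒢 k] (f : F) (m : ℕ) :
    (qExpansion 1 (monicCoeff f (m + 1))).coeff 0 = 0 := by
  have h := CuspFormClass.qExpansion_coeff_zero (esymmCuspForm 𝒮ℒ f (m + 1) (Nat.succ_pos m))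
    one_pos one_mem_strictPeriods_SL
  have h2 : qExpansion 1 (monicCoeff f (m + 1)) =
      ((-1 : ℂ) ^ (m + 1)) • qExpansion 1 (esymmForm 𝒮ℒ f (m + 1)) :=
    ModularForm.qExpansion_smul one_pos one_mem_strictPeriods_SL _ (esymmForm 𝒮ℒ f (m + 1))
  rw [h2, PowerSeries.coeff_smul]
  have h3 : (qExpansion 1 (esymmForm 𝒮ℒ f (m + 1))).coeff 0 = 0 := h
  rw [h3, smul_zero]

/-- **Stability under conjugation**: if `σ` fixes the `q`-expansion of `θ` and level one forms can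
be conjugated by `σ`, then cusp forms for `𝒢` can be conjugated by `σ`. -/
theorem cuspForm_conj (h𝒢 : 𝒢 ≤ 𝒮ℒ) (h1 : (1 : ℝ) ∈ 𝒢.strictPeriods)
    {w : ℤ} (θ : ModularForm 𝒢 w) (hθ : Function.Injective (fun q : 𝒬 ↦ quotientFunc θ q))
    (σ : ℂ →+* ℂ) (hθσ : (qExpansion 1 θ).map σ = qExpansion 1 θ)
    (hconj : ∀ (w : ℤ) (u : ModularForm 𝒮ℒ w),
      ∃ u' : ModularForm 𝒮ℒ w, qExpansion 1 u' = (qExpansion 1 u).map σ)
    {k : ℤ} (f : CuspForm 𝒢 k) :
    ∃ F : CuspForm 𝒢 k, qExpansion 1 F = (qExpansion 1 f).map σ := by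
  obtain ⟨W, D, b, hD, hlin⟩ := qExpansion_linear_rel h1 θ hθ (f : ModularForm 𝒢 k)
  have hmon := qExpansion_monic_rel h1 f
  let n := Nat.card 𝒬
  set P := (qExpansion 1 f).map σ with hP
  obtain ⟨D', hD'⟩ := hconj W D
  choose b' hb' using fun m ↦ hconj _ (b m)
  choose c' hc' using fun m ↦ hconj _ (monicCoeff f m)
  have hlin' : qExpansion 1 D' * P = ∑ m, qExpansion 1 (b' m) * qExpansion 1 θ ^ (m : ℕ) := by
    have := congrArg (PowerSeries.map σ) hlin
    simp only [map_mul, map_sum, map_pow, hθσ, ← hD', ← hb'] at this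
    exact this
  have hmon' : P ^ n + ∑ m ∈ Finset.range n, qExpansion 1 (c' (m + 1)) * P ^ (n - 1 - m) = 0 := by
    have := congrArg (PowerSeries.map σ) hmon
    simp only [map_mul, map_sum, map_pow, map_add, map_zero, ← hc'] at this
    exact this
  have hd0 : qExpansion 1 D' ≠ 0 := by
    rw [hD']
    intro h
    have h2 : qExpansion 1 D = 0 := by
      apply PowerSeries.map_injective σ σ.injective
      rw [h, map_zero]
    exact hD ((ModularForm.qExpansion_eq_zero_iff one_pos one_mem_strictPeriods_SL D).mp h2)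
  have hD'0 : (D' : ℍ → ℂ) ≠ 0 := by
    intro h
    apply hd0
    rw [h, qExpansion_zero]
  let B₁ : ModularForm 𝒢 (k + W) :=
    ∑ m, ModularForm.mcast (by ring) ((restrictForm h𝒢 (b' m)).mul (θ.pow m))
  have hθ' : Nice θ := nice_of_modularForm h1 θ
  have hB₁ : Nice B₁ := nice_of_modularForm h1 B₁
  have hB₁eq : (⟨B₁, hB₁⟩ : niceSubring) =
      ∑ m, nice1 (b' m) * (⟨θ, hθ'⟩ : niceSubring) ^ (m : ℕ) := by
    apply Subtype.ext
    funext τ
    simp [B₁, nice1]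
  have hqB₁ : qx ⟨B₁, hB₁⟩ = P * qExpansion 1 D' := by
    rw [hB₁eq, mul_comm, hlin']
    simp only [map_mul, map_sum, map_pow]
    rfl
  have heq : ∀ z, B₁ z ^ n + ∑ m ∈ Finset.range n,
      c' (m + 1) z * B₁ z ^ (n - 1 - m) * D' z ^ (m + 1) = 0 := by
    have key : (⟨B₁, hB₁⟩ : niceSubring) ^ n + ∑ m ∈ Finset.range n,
        nice1 (c' (m + 1)) * (⟨B₁, hB₁⟩ : niceSubring) ^ (n - 1 - m) * nice1 D' ^ (m + 1) = 0 := by
      apply qx_injective
      simp only [map_mul, map_sum, map_pow, map_add, map_zero, hqB₁]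
      have := homog_eq_ring (n := n) (fun m ↦ qExpansion 1 (c' m)) P (qExpansion 1 D')
      rw [hmon', mul_zero] at this
      exact this
    intro z
    have := congrFun (congrArg Subtype.val key) z
    simpa [nice1] using this
  obtain ⟨F, hF⟩ := exists_cuspForm_of_integral (Γ := 𝒢) (k := k) (w := W) (n := n)
    (b₁ := B₁) (b₂ := D') (a := fun m ↦ c' m) B₁.holo' D'.holo' hD'0
    (fun γ hγ ↦ B₁.slash_action_eq' γ hγ) (fun γ hγ ↦ D'.slash_action_eq' γ (h𝒢 hγ))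
    (fun m ↦ (c' m).holo')
    (fun m γ ↦ by
      rw [mul_comm, ModularForm.SL_slash]
      exact (c' m).slash_action_eq' _ ⟨γ, rfl⟩)
    (fun m ↦ by
      have h0 : (qExpansion 1 (c' (m + 1))).coeff 0 = 0 := by
        rw [hc', PowerSeries.coeff_map, monicCoeff_coeff_zero, map_zero]
      exact CuspFormClass.zero_at_infty (ModularForm.toCuspForm (c' (m + 1)) h0))
    heq
  refine ⟨F, ?_⟩
  have hF' : Nice F := nice_of_modularForm h1 F
  have key : (⟨F, hF'⟩ : niceSubring) * nice1 D' = ⟨B₁, hB₁⟩ := by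
    apply Subtype.ext
    funext τ
    exact hF τ
  have h2 := congrArg qx key
  rw [map_mul, hqB₁] at h2
  exact mul_right_cancel₀ hd0 h2

end

end Fermat.Agent.Lib.IS
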