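import Mathlib

set_option autoImplicit false

open UpperHalfPlane ModularForm EisensteinSeries
open scoped MatrixGroups

namespace Fermat.Agent.Lib.IS

/-- The `q`-expansion (period `1`) of `φ` has integer coefficients. -/
def HasIntQ (φ : ℍ → ℂ) : Prop :=
  ∃ P : PowerSeries ℤ, qExpansion 1 φ = P.map (Int.castRingHom ℂ)

theorem E4_hasIntQ : HasIntQ E₄ := by
  refine ⟨PowerSeries.mk fun m => if m = 0 then 1 else 240 * (ArithmeticFunction.sigma 3 m : ℤ), ?_⟩
  ext m
  rw [E_qExpansion_coeff _ ⟨2, rfl⟩]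
  simp only [PowerSeries.coeff_map, PowerSeries.coeff_mk]
  split_ifs with h
  · simp
  · norm_num [show bernoulli 4 = -1 / 30 by decide +kernel]

theorem E6_hasIntQ : HasIntQ E₆ := by
  refine ⟨PowerSeries.mk fun m => if m = 0 then 1 else -504 * (ArithmeticFunction.sigma 5 m : ℤ), ?_⟩
  ext m
  rw [E_qExpansion_coeff _ ⟨3, rfl⟩]
  simp only [PowerSeries.coeff_map, PowerSeries.coeff_mk]
  split_ifs with h
  · simp
  · norm_num [show bernoulli 6 = 1 / 42 by decide +kernel]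

section closure

variable {Γ : Subgroup (GL (Fin 2) ℝ)} (hΓ : (1 : ℝ) ∈ Γ.strictPeriods)
include hΓ

theorem HasIntQ.mul_mf {a b : ℤ} {f : ModularForm Γ a} {g : ModularForm Γ b}
    (hf : HasIntQ f) (hg : HasIntQ g) : HasIntQ (⇑f * ⇑g) := by
  obtain ⟨P, hP⟩ := hf
  obtain ⟨Q, hQ⟩ := hg
  exact ⟨P * Q, by rw [ModularForm.qExpansion_mul_coe one_pos hΓ, hP, hQ, map_mul]⟩

theorem HasIntQ.sub_mf {a b : ℤ} {f : ModularForm Γ a} {g : ModularForm Γ b}
    (hf : HasIntQ f) (hg : HasIntQ g) : HasIntQ (⇑f - ⇑g) := by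
  obtain ⟨P, hP⟩ := hf
  obtain ⟨Q, hQ⟩ := hg
  exact ⟨P - Q, by rw [ModularForm.qExpansion_sub one_pos hΓ, hP, hQ, map_sub]⟩

theorem HasIntQ.add_mf {a b : ℤ} {f : ModularForm Γ a} {g : ModularForm Γ b}
    (hf : HasIntQ f) (hg : HasIntQ g) : HasIntQ (⇑f + ⇑g) := by
  obtain ⟨P, hP⟩ := hf
  obtain ⟨Q, hQ⟩ := hg
  exact ⟨P + Q, by rw [ModularForm.qExpansion_add one_pos hΓ, hP, hQ, map_add]⟩

theorem HasIntQ.pow_mf [Γ.HasDetPlusMinusOne] {a : ℤ} {f : ModularForm Γ a}
    (hf : HasIntQ f) (n : ℕ) : HasIntQ (⇑f ^ n) := by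
  obtain ⟨P, hP⟩ := hf
  exact ⟨P ^ n, by rw [← ModularForm.coe_pow, ModularForm.qExpansion_pow one_pos hΓ, hP, map_pow]⟩

end closure

theorem hasIntQ_one : HasIntQ (1 : ℍ → ℂ) := ⟨1, by rw [qExpansion_one, map_one]⟩

/-- The weight 12 form `E₄³ - E₆² = 1728 Δ`. -/
noncomputable def D12 : ModularForm 𝒮ℒ 12 :=
  ModularForm.mcast (by decide) (E₄.pow 3) - ModularForm.mcast (by decide) (E₆.pow 2)

theorem D12_apply (z : ℍ) : D12 z = E₄ z ^ 3 - E₆ z ^ 2 := by
  simp only [D12, coe_mcast, coe_pow, sub_apply, Pi.pow_apply]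

theorem D12_eq (z : ℍ) : D12 z = 1728 * discriminant z := by
  rw [D12_apply, discriminant_eq_E₄_cube_sub_E₆_sq]; ring

theorem D12_hasIntQ : HasIntQ D12 := by
  have h := HasIntQ.sub_mf one_mem_strictPeriods_SL
    (f := ModularForm.mcast (by decide : (3:ℕ) * (4:ℤ) = 12) (E₄.pow 3))
    (g := ModularForm.mcast (by decide : (2:ℕ) * (6:ℤ) = 12) (E₆.pow 2))
    (by
      rw [coe_mcast, ModularForm.coe_pow]
      exact HasIntQ.pow_mf one_mem_strictPeriods_SL E4_hasIntQ 3)
    (by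
      rw [coe_mcast, ModularForm.coe_pow]
      exact HasIntQ.pow_mf one_mem_strictPeriods_SL E6_hasIntQ 2)
  exact h

/-- multiplication by `D12` as a linear map. -/
noncomputable def mulD12 (w : ℤ) : ModularForm 𝒮ℒ (w - 12) →ₗ[ℂ] ModularForm 𝒮ℒ w where
  toFun v := ModularForm.mcast (by ring) (D12.mul v)
  map_add' a b := by
    ext z
    simp [mul_add]
  map_smul' c a := by
    ext z
    simp [mul_left_comm]

theorem mulD12_apply (w : ℤ) (v : ModularForm 𝒮ℒ (w - 12)) (z : ℍ) :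
    mulD12 w v z = D12 z * v z := rfl

theorem coe_mulD12 (w : ℤ) (v : ModularForm 𝒮ℒ (w - 12)) :
    ⇑(mulD12 w v) = ⇑D12 * ⇑v := rfl

/-- monomial `E₄^a E₆^b`. -/
noncomputable def monoE (a b : ℕ) {w : ℤ} (h : (a : ℤ) * 4 + (b : ℤ) * 6 = w) : ModularForm 𝒮ℒ w :=
  ModularForm.mcast h ((E₄.pow a).mul (E₆.pow b))

theorem coe_monoE (a b : ℕ) {w : ℤ} (h : (a : ℤ) * 4 + (b : ℤ) * 6 = w) :
    ⇑(monoE a b h) = ⇑(E₄.pow a) * ⇑(E₆.pow b) := rfl

theorem monoE_hasIntQ (a b : ℕ) {w : ℤ} (h : (a : ℤ) * 4 + (b : ℤ) * 6 = w) :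
    HasIntQ (monoE a b h) := by
  rw [coe_monoE]
  refine HasIntQ.mul_mf one_mem_strictPeriods_SL ?_ ?_
  · rw [ModularForm.coe_pow]
    exact HasIntQ.pow_mf one_mem_strictPeriods_SL E4_hasIntQ a
  · rw [ModularForm.coe_pow]
    exact HasIntQ.pow_mf one_mem_strictPeriods_SL E6_hasIntQ b

theorem monoE_coeff_zero (a b : ℕ) {w : ℤ} (h : (a : ℤ) * 4 + (b : ℤ) * 6 = w) :
    (qExpansion 1 (monoE a b h)).coeff 0 = 1 := by
  rw [coe_monoE, ModularForm.qExpansion_mul_coe one_pos one_mem_strictPeriods_SL,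
    ModularForm.qExpansion_pow one_pos one_mem_strictPeriods_SL,
    ModularForm.qExpansion_pow one_pos one_mem_strictPeriods_SL]
  simp only [PowerSeries.coeff_zero_eq_constantCoeff, map_mul, map_pow]
  rw [← PowerSeries.coeff_zero_eq_constantCoeff_apply, ← PowerSeries.coeff_zero_eq_constantCoeff_apply,
    E_qExpansion_coeff_zero _ ⟨2, rfl⟩, E_qExpansion_coeff_zero _ ⟨3, rfl⟩]
  simp

theorem mulD12_mem_span (w : ℤ)
    (h : Submodule.span ℂ {u : ModularForm 𝒮ℒ (w - 12) | HasIntQ u} = ⊤)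
    (v : ModularForm 𝒮ℒ (w - 12)) :
    mulD12 w v ∈ Submodule.span ℂ {u : ModularForm 𝒮ℒ w | HasIntQ u} := by
  have hv : v ∈ Submodule.span ℂ {u : ModularForm 𝒮ℒ (w - 12) | HasIntQ u} := by
    rw [h]; trivial
  have hle : (Submodule.span ℂ {u : ModularForm 𝒮ℒ (w - 12) | HasIntQ u}).map (mulD12 w) ≤
      Submodule.span ℂ {u : ModularForm 𝒮ℒ w | HasIntQ u} := by
    rw [Submodule.map_span_le]
    intro u hu
    refine Submodule.subset_span ?_
    show HasIntQ (mulD12 w u)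
    rw [coe_mulD12]
    exact HasIntQ.mul_mf one_mem_strictPeriods_SL D12_hasIntQ hu
  exact hle (Submodule.mem_map_of_mem hv)

theorem span_int_eq_top_of_forall_eq_zero {w : ℤ} (h : ∀ u : ModularForm 𝒮ℒ w, u = 0) :
    Submodule.span ℂ {u : ModularForm 𝒮ℒ w | HasIntQ u} = ⊤ := by
  rw [eq_top_iff]
  intro u _
  rw [h u]
  exact zero_mem _

theorem span_int_step (w : ℤ) (G : ModularForm 𝒮ℒ w) (hG0 : (qExpansion 1 G).coeff 0 = 1)
    (hG : HasIntQ G) (ih : Submodule.span ℂ {u : ModularForm 𝒮ℒ (w - 12) | HasIntQ u} = ⊤) :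
    Submodule.span ℂ {u : ModularForm 𝒮ℒ w | HasIntQ u} = ⊤ := by
  rw [eq_top_iff]
  intro u _
  have hcusp := (isCuspForm_iff_coeffZero_eq_zero _).mp (sub_smul_isCuspForm u G hG0)
  generalize (qExpansion 1 u).coeff 0 = c0 at hcusp
  obtain ⟨v, hv⟩ : ∃ v, v = CuspForm.discriminantEquiv (toCuspForm (u - c0 • G) hcusp) := ⟨_, rfl⟩
  have hu : u = c0 • G + (1 / 1728 : ℂ) • mulD12 w v := by
    ext z
    have h1 : discriminant z * v z = (u - c0 • G) z := by
      rw [hv, discriminant_mul_discriminantEquiv_apply, toCuspForm_apply]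
    have h2 : (u - c0 • G) z = u z - c0 * G z := by simp
    have h3 : (c0 • G + (1 / 1728 : ℂ) • mulD12 w v) z
        = c0 * G z + (1 / 1728 : ℂ) * (D12 z * v z) := by
      simp [mulD12_apply]
    rw [h3, D12_eq]
    linear_combination (-1 : ℂ) * h2 - h1
  rw [hu]
  exact Submodule.add_mem _ (Submodule.smul_mem _ _ (Submodule.subset_span hG))
    (Submodule.smul_mem _ _ (mulD12_mem_span w ih v))

/-- Level one modular forms are spanned by forms with integral `q`-expansion. -/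
theorem levelOne_span_int (w : ℤ) :
    Submodule.span ℂ {u : ModularForm 𝒮ℒ w | HasIntQ u} = ⊤ := by
  suffices H : ∀ n : ℕ, ∀ w : ℤ, w < n →
      Submodule.span ℂ {u : ModularForm 𝒮ℒ w | HasIntQ u} = ⊤ from
    H (w.toNat + 1) w (by omega)
  intro n
  induction n with
  | zero =>
    intro w hw
    refine span_int_eq_top_of_forall_eq_zero fun u => ?_
    ext z
    simpa using congrFun (ModularFormClass.levelOne_neg_weight_eq_zero (by simpa using hw) u) z
  | succ n ih =>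
    intro w hw
    rcases lt_or_ge w 0 with hneg | hnn
    · refine span_int_eq_top_of_forall_eq_zero fun u => ?_
      ext z
      simpa using congrFun (ModularFormClass.levelOne_neg_weight_eq_zero hneg u) z
    rcases Int.even_or_odd w with hev | hodd
    swap
    · exact span_int_eq_top_of_forall_eq_zero fun u => ModularForm.levelOne_odd_weight_eq_zero hodd u
    rcases eq_or_ne w 0 with rfl | h0
    · rw [eq_top_iff]
      intro u _
      obtain ⟨c, hc⟩ := ModularFormClass.levelOne_weight_zero_const u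
      have hu : u = c • (1 : ModularForm 𝒮ℒ 0) := by
        ext z
        simp [hc]
      rw [hu]
      refine Submodule.smul_mem _ _ (Submodule.subset_span ?_)
      show HasIntQ (⇑(1 : ModularForm 𝒮ℒ 0))
      rw [ModularForm.one_coe_eq_one]
      exact hasIntQ_one
    rcases eq_or_ne w 2 with rfl | h2
    · refine span_int_eq_top_of_forall_eq_zero fun u => ?_
      exact rank_zero_iff_forall_zero.mp levelOne_weight_two_rank_zero u
    have hab : ∃ a b : ℕ, (a : ℤ) * 4 + (b : ℤ) * 6 = w := by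
      obtain ⟨m, hm⟩ := hev
      rcases Int.even_or_odd' m with ⟨c, rfl | rfl⟩
      · exact ⟨c.toNat, 0, by omega⟩
      · exact ⟨(c - 1).toNat, 1, by omega⟩
    obtain ⟨a, b, hab⟩ := hab
    exact span_int_step w (monoE a b hab) (monoE_coeff_zero a b hab) (monoE_hasIntQ a b hab)
      (ih (w - 12) (by push_cast at hw; omega))

theorem map_map_intCast (σ : ℂ →+* ℂ) (P : PowerSeries ℤ) :
    (P.map (Int.castRingHom ℂ)).map σ = P.map (Int.castRingHom ℂ) := by
  ext n
  simp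

/-- `σ`-conjugate of a level one modular form. -/
theorem levelOne_conj (σ : ℂ →+* ℂ) {w : ℤ} (u : ModularForm 𝒮ℒ w) :
    ∃ u' : ModularForm 𝒮ℒ w, qExpansion 1 u' = (qExpansion 1 u).map σ := by
  have hu : u ∈ Submodule.span ℂ {u : ModularForm 𝒮ℒ w | HasIntQ u} := by
    rw [levelOne_span_int]; trivial
  induction hu using Submodule.span_induction with
  | mem x hx =>
    obtain ⟨P, hP⟩ := hx
    exact ⟨x, by rw [hP, map_map_intCast]⟩
  | zero => exact ⟨0, by simp [qExpansion_zero]⟩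
  | add x y _ _ hx hy =>
    obtain ⟨x', hx'⟩ := hx
    obtain ⟨y', hy'⟩ := hy
    refine ⟨x' + y', ?_⟩
    rw [FunLike.coe_add, FunLike.coe_add, ModularForm.qExpansion_add one_pos one_mem_strictPeriods_SL,
      ModularForm.qExpansion_add one_pos one_mem_strictPeriods_SL, hx', hy', map_add]
  | smul c x _ hx =>
    obtain ⟨x', hx'⟩ := hx
    refine ⟨σ c • x', ?_⟩
    rw [FunLike.coe_smul, FunLike.coe_smul,
      ModularForm.qExpansion_smul one_pos one_mem_strictPeriods_SL,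
      ModularForm.qExpansion_smul one_pos one_mem_strictPeriods_SL, hx']
    ext n
    simp

/-- `σ`-conjugate of a level one cusp form. -/
theorem levelOne_conj_cusp (σ : ℂ →+* ℂ) {w : ℤ} (u : CuspForm 𝒮ℒ w) :
    ∃ u' : CuspForm 𝒮ℒ w, qExpansion 1 u' = (qExpansion 1 u).map σ := by
  obtain ⟨v, hv⟩ := levelOne_conj σ (CuspForm.toModularFormₗ u)
  have hu0 : (qExpansion 1 u).coeff 0 = 0 :=
    CuspFormClass.qExpansion_coeff_zero u one_pos one_mem_strictPeriods_SL
  have hcoe : ⇑(CuspForm.toModularFormₗ u) = ⇑u := rfl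
  rw [hcoe] at hv
  have hv0 : (qExpansion 1 v).coeff 0 = 0 := by
    rw [hv, PowerSeries.coeff_map, hu0, map_zero]
  exact ⟨toCuspForm v hv0, hv⟩

theorem levelOne_qExpansion_mem_span {w : ℤ} (u : ModularForm 𝒮ℒ w) :
    qExpansion 1 u ∈ Submodule.span ℂ (Set.range (PowerSeries.map (Int.castRingHom ℂ))) := by
  have hu : u ∈ Submodule.span ℂ {u : ModularForm 𝒮ℒ w | HasIntQ u} := by
    rw [levelOne_span_int]; trivial
  induction hu using Submodule.span_induction with
  | mem x hx =>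
    obtain ⟨P, hP⟩ := hx
    exact Submodule.subset_span ⟨P, hP.symm⟩
  | zero => simp [qExpansion_zero]
  | add x y _ _ hx hy =>
    rw [FunLike.coe_add, ModularForm.qExpansion_add one_pos one_mem_strictPeriods_SL]
    exact Submodule.add_mem _ hx hy
  | smul c x _ hx =>
    rw [FunLike.coe_smul, ModularForm.qExpansion_smul one_pos one_mem_strictPeriods_SL]
    exact Submodule.smul_mem _ _ hx

end Fermat.Agent.Lib.IS
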