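import Fermat.Agent.Lib.IS.Main
import Fermat.Agent.Lib.IS.LevelOne
import Fermat.Agent.Lib.IS.BoundedDenom

open UpperHalfPlane ModularForm SlashInvariantForm CongruenceSubgroup
open scoped ModularForm Topology Filter Manifold MatrixGroups

namespace Fermat.Agent.Lib.IS

/-- The integral structure theorem in every weight, given a primitive element `θ`. -/
theorem hasIntegralStructure_of_theta (N : ℕ) [NeZero N] (k : ℤ)
    (hθ : ∃ (w : ℤ) (θ : ModularForm (Gamma0 N) w),
      (∃ Q : PowerSeries ℤ, Q.map (Int.castRingHom ℂ) = qExpansion 1 θ) ∧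
      Function.Injective (SlashInvariantForm.quotientFunc (ℋ := 𝒮ℒ) θ)) :
    CuspForm.HasIntegralStructure N k :=
  hasIntegralStructure_of N k (fun _ u ↦ levelOne_qExpansion_mem_span u)
    (fun σ _ u ↦ levelOne_conj σ u) hθ
    (fun P hP D Nn hD hD0 hN hrel n c hc hmon ↦ bounded_denom P hP D Nn hD hD0 hN hrel n c hc hmon)

end Fermat.Agent.Lib.IS
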