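import Fermat.Agent.Lib.IS.Main
import Fermat.Prelude.Def_CuspForm_HeckeAlgebra
import Fermat.Prelude.Thm_CuspForm_intLattice_fg
import Fermat.Prelude.Thm_CuspForm_mem_intLattice_of_mem_heckeAlgebra

open UpperHalfPlane ModularForm CongruenceSubgroup CuspForm
open scoped MatrixGroups

namespace Fermat.Agent.Lib.IS

noncomputable section

variable (N : ℕ) [NeZero N] (k : ℤ) (S : Set ℕ)

/-- Restriction of a Hecke operator to the integral lattice. -/
def latRestrict (hk : 1 ≤ k) : ↥(heckeAlgebra N k S) →ₗ[ℤ] Module.End ℤ ↥(intLattice N k) where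
  toFun t := LinearMap.restrict ((t : Module.End ℂ (CuspForm (Gamma0 N) k)).restrictScalars ℤ)
    (fun _f hf => mem_intLattice_of_mem_heckeAlgebra hk t.2 hf)
  map_add' _ _ := LinearMap.ext fun _ => Subtype.ext rfl
  map_smul' _ _ := LinearMap.ext fun _ => Subtype.ext rfl

theorem latRestrict_injective (hk : 1 ≤ k) (hint : HasIntegralStructure N k) :
    Function.Injective (latRestrict N k S hk) := by
  rw [← LinearMap.ker_eq_bot, LinearMap.ker_eq_bot']
  intro t h
  refine Subtype.ext (LinearMap.ext_on hint fun f hf => ?_)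
  exact congrArg Subtype.val (LinearMap.congr_fun h ⟨f, hf⟩)

theorem moduleFinite_heckeAlgebra_of_one_le (hk : 1 ≤ k) (hint : HasIntegralStructure N k) :
    Module.Finite ℤ (heckeAlgebra N k S) := by
  have : Module.Finite ℤ ↥(intLattice N k) := Module.Finite.iff_fg.mpr (intLattice_fg N k)
  have : IsAddTorsionFree (CuspForm (Gamma0 N) k) := .of_isTorsionFree ℂ _
  have : Module.Free ℤ ↥(intLattice N k) := Module.free_of_finite_type_torsion_free'
  exact Module.Finite.of_injective (latRestrict N k S hk) (latRestrict_injective N k S hk hint)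

theorem cuspForm_eq_zero_of_nonpos (hk : k ≤ 0) (f : CuspForm (Gamma0 N) k) : f = 0 := by
  refine eq_zero_of_sturm N k f fun n hn ↦ ?_
  have h0 : (k * ((Gamma0 N).index : ℤ)).toNat = 0 :=
    Int.toNat_of_nonpos (mul_nonpos_of_nonpos_of_nonneg hk (Int.natCast_nonneg _))
  rw [h0] at hn
  obtain rfl : n = 0 := by simpa using hn
  exact CuspFormClass.qExpansion_coeff_zero f one_pos (one_mem_strictPeriods_Gamma0 N)

theorem moduleFinite_heckeAlgebra_of_nonpos (hk : k ≤ 0) :
    Module.Finite ℤ (heckeAlgebra N k S) := by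
  have : Subsingleton (CuspForm (Gamma0 N) k) :=
    ⟨fun a b ↦ by rw [cuspForm_eq_zero_of_nonpos N k hk a, cuspForm_eq_zero_of_nonpos N k hk b]⟩
  have : Subsingleton (Module.End ℂ (CuspForm (Gamma0 N) k)) :=
    ⟨fun a b ↦ LinearMap.ext fun x ↦ Subsingleton.elim _ _⟩
  have : Subsingleton ↥(heckeAlgebra N k S) := ⟨fun a b ↦ Subtype.ext (Subsingleton.elim _ _)⟩
  infer_instance

theorem moduleFinite_heckeAlgebra_of (hint : HasIntegralStructure N k) :
    Module.Finite ℤ (heckeAlgebra N k S) := by
  rcases le_or_gt k 0 with hk | hk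
  · exact moduleFinite_heckeAlgebra_of_nonpos N k S hk
  · exact moduleFinite_heckeAlgebra_of_one_le N k S hk hint

end

end Fermat.Agent.Lib.IS
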