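import Fermat.Agent.Lib.IS.Conj
import Fermat.Agent.Lib.IS.FixedField
import Fermat.Prelude.Def_CuspForm_IntegralStructure
import Fermat.Prelude.Thm_ModularForm_sturm_bound_Gamma0
import Fermat.Prelude.Thm_CongruenceSubgroup_one_mem_strictPeriods_Gamma0

open UpperHalfPlane ModularForm SlashInvariantForm CongruenceSubgroup
open scoped ModularForm Topology Filter Manifold MatrixGroups

namespace Fermat.Agent.Lib.IS

noncomputable section

/-- The `ℂ`-span of the power series with integer coefficients. -/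
def intSpan : Submodule ℂ (PowerSeries ℂ) :=
  Submodule.span ℂ (Set.range (PowerSeries.map (Int.castRingHom ℂ)))

lemma intSpan_mul {x y : PowerSeries ℂ} (hx : x ∈ intSpan) (hy : y ∈ intSpan) :
    x * y ∈ intSpan := by
  have h := Submodule.mul_mem_mul hx hy
  rw [intSpan, Submodule.span_mul_span] at h
  refine Submodule.span_mono ?_ h
  rintro _ ⟨_, ⟨a, rfl⟩, _, ⟨b, rfl⟩, rfl⟩
  exact ⟨a * b, map_mul _ _ _⟩

lemma intSpan_one : (1 : PowerSeries ℂ) ∈ intSpan :=
  Submodule.subset_span ⟨1, map_one _⟩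

lemma intSpan_pow {x : PowerSeries ℂ} (hx : x ∈ intSpan) (n : ℕ) : x ^ n ∈ intSpan := by
  induction n with
  | zero => simpa using intSpan_one
  | succ n ih => rw [pow_succ]; exact intSpan_mul ih hx

variable (N : ℕ) [NeZero N] (k : ℤ)

omit [NeZero N] in
lemma Gamma0_le_SL : (Gamma0 N : Subgroup (GL (Fin 2) ℝ)) ≤ 𝒮ℒ :=
  Subgroup.map_le_range _ _

/-- The coefficient map. -/
def coeffMap : CuspForm (Gamma0 N) k →ₗ[ℂ] (ℕ → ℂ) where
  toFun f n := (qExpansion 1 f).coeff n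
  map_add' f g := by
    funext n
    have := ModularForm.qExpansion_add one_pos (one_mem_strictPeriods_Gamma0 N) f g
    rw [FunLike.coe_add, this]
    simp
  map_smul' c f := by
    funext n
    have := ModularForm.qExpansion_smul one_pos (one_mem_strictPeriods_Gamma0 N) c f
    rw [FunLike.coe_smul, this]
    simp

omit [NeZero N] in
lemma coeffMap_apply (f : CuspForm (Gamma0 N) k) (n : ℕ) :
    coeffMap N k f n = (qExpansion 1 f).coeff n := rfl

lemma eq_zero_of_sturm (f : CuspForm (Gamma0 N) k)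
    (h : ∀ n : ℕ, n ≤ (k * (Gamma0 N).index).toNat / 12 → (qExpansion 1 f).coeff n = 0) :
    f = 0 := by
  have := ModularForm.sturm_bound_Gamma0 N (f : ModularForm (Gamma0 N) k) h
  ext τ
  exact DFunLike.congr_fun this τ

lemma coeffMap_injective : Function.Injective (coeffMap N k) := by
  rw [← LinearMap.ker_eq_bot, LinearMap.ker_eq_bot']
  intro f hf
  exact eq_zero_of_sturm N k f fun n _ ↦ congrFun hf n

instance finiteDimensional_cuspForm : FiniteDimensional ℂ (CuspForm (Gamma0 N) k) := by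
  let B := (k * (Gamma0 N).index).toNat / 12
  let c : CuspForm (Gamma0 N) k →ₗ[ℂ] (Fin (B + 1) → ℂ) :=
    (LinearMap.funLeft ℂ ℂ (fun i : Fin (B + 1) ↦ (i : ℕ))).comp (coeffMap N k)
  refine FiniteDimensional.of_injective c ?_
  rw [← LinearMap.ker_eq_bot, LinearMap.ker_eq_bot']
  intro f hf
  refine eq_zero_of_sturm N k f fun n hn ↦ ?_
  exact congrFun hf ⟨n, Nat.lt_succ_of_le hn⟩

/-- The statement of the bounded denominators lemma (pure algebra). -/
def BoundedDenomStatement : Prop :=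
  ∀ (P : PowerSeries ℂ) (_ : ∀ n, ∃ r : ℚ, (r : ℂ) = P.coeff n)
    (D Nn : PowerSeries ℂ)
    (_ : D ∈ Submodule.span ℂ (Set.range (PowerSeries.map (Int.castRingHom ℂ)))) (_ : D ≠ 0)
    (_ : Nn ∈ Submodule.span ℂ (Set.range (PowerSeries.map (Int.castRingHom ℂ))))
    (_ : D * P = Nn) (n : ℕ) (c : ℕ → PowerSeries ℂ)
    (_ : ∀ m, c m ∈ Submodule.span ℂ (Set.range (PowerSeries.map (Int.castRingHom ℂ))))
    (_ : P ^ n + ∑ m ∈ Finset.range n, c (m + 1) * P ^ (n - 1 - m) = 0),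
    ∃ M : ℤ, M ≠ 0 ∧ ∀ j, ∃ z : ℤ, (z : ℂ) = (M : ℂ) * P.coeff j

/-- The integral structure theorem, modulo the three remaining leaves. -/
theorem hasIntegralStructure_of
    (hL1 : ∀ (w : ℤ) (u : ModularForm 𝒮ℒ w), qExpansion 1 u ∈
      Submodule.span ℂ (Set.range (PowerSeries.map (Int.castRingHom ℂ))))
    (hL1' : ∀ (σ : ℂ →+* ℂ) (w : ℤ) (u : ModularForm 𝒮ℒ w),
      ∃ u' : ModularForm 𝒮ℒ w, qExpansion 1 u' = (qExpansion 1 u).map σ)
    (hθ : ∃ (w : ℤ) (θ : ModularForm (Gamma0 N) w),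
      (∃ Q : PowerSeries ℤ, Q.map (Int.castRingHom ℂ) = qExpansion 1 θ) ∧
      Function.Injective (SlashInvariantForm.quotientFunc (ℋ := 𝒮ℒ) θ))
    (hBD : BoundedDenomStatement) :
    CuspForm.HasIntegralStructure N k := by
  obtain ⟨w, θ, ⟨Q, hQ⟩, hinj⟩ := hθ
  have h1 := one_mem_strictPeriods_Gamma0 N
  have hrat := span_rational_eq_top (coeffMap N k) (coeffMap_injective N k) (by
    intro σ f
    obtain ⟨F, hF⟩ := cuspForm_conj (Gamma0_le_SL N) h1 θ hinj (σ : ℂ →+* ℂ) (by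
      rw [← hQ]
      ext n
      simp) (hL1' σ) f
    refine ⟨F, fun n ↦ ?_⟩
    rw [coeffMap_apply, hF, PowerSeries.coeff_map]
    rfl)
  rw [CuspForm.HasIntegralStructure, eq_top_iff, ← hrat, Submodule.span_le]
  intro f hf
  obtain ⟨W, D, b, hD, hlin⟩ := qExpansion_linear_rel h1 θ hinj (f : ModularForm (Gamma0 N) k)
  have hmon := qExpansion_monic_rel h1 f
  have hθS : qExpansion 1 θ ∈ intSpan := Submodule.subset_span ⟨Q, hQ⟩
  obtain ⟨M, hM, hint⟩ := hBD (qExpansion 1 f) hf (qExpansion 1 D) _ (hL1 _ D)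
    (fun h ↦ hD ((ModularForm.qExpansion_eq_zero_iff one_pos one_mem_strictPeriods_SL D).mp h))
    (Submodule.sum_mem _ fun m _ ↦ intSpan_mul (hL1 _ (b m)) (intSpan_pow hθS m)) hlin _
    (fun m ↦ qExpansion 1 (monicCoeff f m)) (fun m ↦ hL1 _ _) hmon
  have hMC : (M : ℂ) ≠ 0 := by exact_mod_cast hM
  have hmem : (M : ℂ) • f ∈ CuspForm.intLattice N k := by
    refine Submodule.subset_span fun n ↦ ?_
    obtain ⟨z, hz⟩ := hint n
    refine ⟨z, ?_⟩
    have := congrFun ((coeffMap N k).map_smul (M : ℂ) f) n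
    rw [hz]
    exact this
  have : f = (M : ℂ)⁻¹ • ((M : ℂ) • f) := by rw [smul_smul, inv_mul_cancel₀ hMC, one_smul]
  rw [this]
  exact Submodule.smul_mem _ _ (Submodule.subset_span hmem)

end

end Fermat.Agent.Lib.IS
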