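import Mathlib

open UpperHalfPlane ModularForm SlashInvariantForm
open scoped ModularForm Topology Filter Manifold MatrixGroups

namespace Fermat.Agent.Lib.IS

noncomputable section

/-- Holomorphic, `1`-periodic functions on the upper half plane which are bounded at `i∞`. -/
structure Nice (g : ℍ → ℂ) : Prop where
  per : Function.Periodic (g ∘ ofComplex) 1
  holo : MDiff g
  bdd : IsBoundedAtImInfty g

lemma Nice.analyticAt {g : ℍ → ℂ} (hg : Nice g) : AnalyticAt ℂ (cuspFunction 1 g) 0 :=
  analyticAt_cuspFunction_zero one_pos hg.per hg.holo hg.bdd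

lemma Nice.mul {f g : ℍ → ℂ} (hf : Nice f) (hg : Nice g) : Nice (f * g) where
  per := hf.per.mul hg.per
  holo := hf.holo.mul hg.holo
  bdd := hf.bdd.mul hg.bdd

lemma Nice.add {f g : ℍ → ℂ} (hf : Nice f) (hg : Nice g) : Nice (f + g) where
  per := hf.per.add hg.per
  holo := hf.holo.add hg.holo
  bdd := hf.bdd.add hg.bdd

lemma Nice.neg {f : ℍ → ℂ} (hf : Nice f) : Nice (-f) where
  per := fun x ↦ by simpa using congrArg Neg.neg (hf.per x)
  holo := hf.holo.neg
  bdd := hf.bdd.neg

lemma Nice.const (c : ℂ) : Nice (fun _ ↦ c) where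
  per := fun _ ↦ rfl
  holo := mdifferentiable_const
  bdd := Filter.const_boundedAtFilter _ c

/-- The ring of nice functions. -/
def niceSubring : Subring (ℍ → ℂ) where
  carrier := {g | Nice g}
  mul_mem' := Nice.mul
  add_mem' := Nice.add
  neg_mem' := Nice.neg
  one_mem' := Nice.const 1
  zero_mem' := Nice.const 0

/-- The `q`-expansion as a ring homomorphism on nice functions. -/
def qx : niceSubring →+* PowerSeries ℂ where
  toFun g := qExpansion 1 g.1
  map_one' := qExpansion_one 1
  map_zero' := qExpansion_zero 1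
  map_mul' f g := qExpansion_mul f.2.analyticAt g.2.analyticAt
  map_add' f g := qExpansion_add f.2.analyticAt g.2.analyticAt

lemma qx_apply (g : niceSubring) : qx g = qExpansion 1 g.1 := rfl

lemma qx_injective : Function.Injective qx := by
  rw [injective_iff_map_eq_zero]
  intro g hg
  exact Subtype.ext ((qExpansion_eq_zero_iff one_pos g.2.per g.2.holo g.2.bdd).mp hg)

lemma nice_of_modularForm {Γ : Subgroup (GL (Fin 2) ℝ)} [Γ.IsArithmetic] {k : ℤ} {F : Type*}
    [FunLike F ℍ ℂ] [ModularFormClass F Γ k] (h1 : (1 : ℝ) ∈ Γ.strictPeriods) (g : F) :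
    Nice g where
  per := SlashInvariantFormClass.periodic_comp_ofComplex g h1
  holo := ModularFormClass.holo g
  bdd := ModularFormClass.bdd_at_infty g

end

end Fermat.Agent.Lib.IS
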