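import Mathlib
import Fermat.Prelude.Def_ModularForm_HeckeOperator
import Fermat.Prelude.Thm_ModularFormClass_qCoeff_heckeT
import Fermat.Agent.Lib.IS.LevelOne

set_option autoImplicit false

open UpperHalfPlane ModularForm EisensteinSeries Filter Topology
open scoped MatrixGroups Pointwise

namespace Fermat.Agent.Lib.IS

open Matrix.SpecialLinearGroup (mapGL)

/-- `diag(N,1) * γ = δ * diag(N,1)` for `γ ∈ Γ₀(N)`. -/
theorem exists_conj_of_mem_Gamma0 {N : ℕ} (hN : N ≠ 0) {γ : SL(2, ℤ)}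
    (hγ : γ ∈ CongruenceSubgroup.Gamma0 N) :
    ∃ δ : SL(2, ℤ), heckeDiagMatrix N * mapGL ℝ γ = mapGL ℝ δ * heckeDiagMatrix N := by
  rw [CongruenceSubgroup.Gamma0_mem, ZMod.intCast_zmod_eq_zero_iff_dvd] at hγ
  obtain ⟨c', hc'⟩ := hγ
  have hdet : γ 0 0 * γ 1 1 - γ 0 1 * γ 1 0 = 1 := by
    have := γ.det_coe
    rwa [Matrix.det_fin_two] at this
  obtain ⟨δ, hδ⟩ : ∃ δ : SL(2, ℤ),
      (δ : Matrix (Fin 2) (Fin 2) ℤ) = !![γ 0 0, N * γ 0 1; c', γ 1 1] := by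
    refine ⟨⟨!![γ 0 0, N * γ 0 1; c', γ 1 1], ?_⟩, rfl⟩
    rw [Matrix.det_fin_two_of]
    rw [hc'] at hdet
    linear_combination hdet
  refine ⟨δ, ?_⟩
  apply Units.ext
  rw [Units.val_mul, Units.val_mul, val_heckeDiagMatrix hN]
  ext i j
  fin_cases i <;> fin_cases j <;>
    simp [Matrix.mul_apply, Fin.sum_univ_two, hc', hδ] <;> ring

open ConjAct in
theorem Gamma0_le_conj {N : ℕ} (hN : N ≠ 0) :
    (CongruenceSubgroup.Gamma0 N).map (mapGL ℝ) ≤ toConjAct (heckeDiagMatrix N)⁻¹ • 𝒮ℒ := by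
  rintro _ ⟨γ, hγ, rfl⟩
  obtain ⟨δ, hδ⟩ := exists_conj_of_mem_Gamma0 hN hγ
  rw [map_inv, Subgroup.mem_inv_pointwise_smul_iff, toConjAct_smul, hδ, mul_inv_cancel_right]
  exact ⟨δ, rfl⟩

/-- `θ(z) = N³ E₄(N z)` as a modular form on `Γ₀(N)`. -/
noncomputable def theta (N : ℕ) [NeZero N] : ModularForm (CongruenceSubgroup.Gamma0 N) 4 where
  toFun := ⇑E₄ ∣[(4 : ℤ)] heckeDiagMatrix N
  slash_action_eq' γ hγ :=
    (ModularForm.translate E₄ (heckeDiagMatrix N)).slash_action_eq' γ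
      (Gamma0_le_conj (NeZero.ne N) hγ)
  holo' := (ModularForm.translate E₄ (heckeDiagMatrix N)).holo'
  bdd_at_cusps' hc :=
    (ModularForm.translate E₄ (heckeDiagMatrix N)).bdd_at_cusps'
      (hc.mono (Gamma0_le_conj (NeZero.ne N)))

theorem coe_theta (N : ℕ) [NeZero N] : ⇑(theta N) = ⇑E₄ ∣[(4 : ℤ)] heckeDiagMatrix N := rfl

theorem theta_apply (N : ℕ) [NeZero N] (τ : ℍ) :
    theta N τ = (N : ℂ) ^ 3 * E₄ (heckeDiagMatrix N • τ) := by
  rw [coe_theta, slash_heckeDiagMatrix_apply 4 (NeZero.ne N)]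
  norm_num

theorem one_mem_strictPeriods_Gamma0 (N : ℕ) :
    (1 : ℝ) ∈ ((CongruenceSubgroup.Gamma0 N).map (mapGL ℝ)).strictPeriods := by
  simp

theorem theta_hasIntQ (N : ℕ) [NeZero N] : HasIntQ (theta N) := by
  obtain ⟨P, hP⟩ := E4_hasIntQ
  refine ⟨PowerSeries.mk fun n => if N ∣ n then (N : ℤ) ^ 3 * P.coeff (n / N) else 0, ?_⟩
  ext n
  have hsum : ∀ τ : ℍ, HasSum (fun m : ℕ ↦
      (if N ∣ m then (N : ℂ) ^ 3 * (qExpansion 1 E₄).coeff (m / N) else 0) •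
        Function.Periodic.qParam 1 τ ^ m) (theta N τ) := by
    intro τ
    have h := P2MW.S_ModularFormClass_qCoeff_heckeT.M4cP1W2.hasSum_diag (NeZero.ne N)
      (SlashInvariantFormClass.periodic_comp_ofComplex E₄ one_mem_strictPeriods_SL)
      (ModularFormClass.holo E₄) (ModularFormClass.bdd_at_infty E₄) 4 τ
    rw [theta_apply]
    convert h using 1
    · funext m
      split_ifs <;> simp [ModularFormClass.qCoeff]
    · norm_num
  rw [← ModularFormClass.qExpansion_coeff_unique one_pos (one_mem_strictPeriods_Gamma0 N) hsum n,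
    hP]
  simp only [PowerSeries.coeff_map, PowerSeries.coeff_mk]
  split_ifs <;> simp

theorem tendsto_mf {Γ : Subgroup (GL (Fin 2) ℝ)} {k : ℤ} (f : ModularForm Γ k)
    (hΓ : (1 : ℝ) ∈ Γ.strictPeriods) :
    Tendsto f atImInfty (𝓝 ((qExpansion 1 f).coeff 0)) := by
  have hanal := ModularFormClass.analyticAt_cuspFunction_zero f one_pos hΓ
  have h0 : (qExpansion 1 f).coeff 0 = cuspFunction 1 f 0 := by
    simp [qExpansion_coeff]
  rw [h0]
  exact (hanal.continuousAt.tendsto.comp (qParam_tendsto_atImInfty one_pos)).congr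
    (fun τ ↦ SlashInvariantFormClass.eq_cuspFunction f τ hΓ one_ne_zero)

theorem tendsto_E4 : Tendsto E₄ atImInfty (𝓝 1) := by
  have h := tendsto_mf E₄ one_mem_strictPeriods_SL
  rwa [E_qExpansion_coeff_zero _ ⟨2, rfl⟩] at h

theorem tendsto_slash_upper {f : ℍ → ℂ} {L : ℂ} (hf : Tendsto f atImInfty (𝓝 L)) (k : ℤ)
    (a b d : ℝ) (had : a * d ≠ 0) (hpos : 0 < a * d) :
    Tendsto (f ∣[k] upperTriangularGL a b d had) atImInfty
      (𝓝 (L * ((a * d : ℝ) : ℂ) ^ (k - 1) * (d : ℂ) ^ (-k))) := by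
  have h10 : (upperTriangularGL a b d had : GL (Fin 2) ℝ) 1 0 = 0 := by
    simp [val_upperTriangularGL]
  have hdet : ((upperTriangularGL a b d had).det : ℝ) = a * d := by
    rw [Matrix.GeneralLinearGroup.val_det_apply, val_upperTriangularGL, Matrix.det_fin_two_of]
    ring
  have hσ : UpperHalfPlane.σ (upperTriangularGL a b d had) = .refl ℝ ℂ := by
    rw [UpperHalfPlane.σ, if_pos (by rw [hdet]; exact hpos)]
  have hden : ∀ τ : ℍ, UpperHalfPlane.denom (upperTriangularGL a b d had) τ = d := by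
    intro τ
    simp [UpperHalfPlane.denom, val_upperTriangularGL]
  have hfun : (f ∣[k] upperTriangularGL a b d had) = fun τ =>
      f (upperTriangularGL a b d had • τ) * ((a * d : ℝ) : ℂ) ^ (k - 1) * (d : ℂ) ^ (-k) := by
    funext τ
    rw [ModularForm.slash_apply, hσ, hdet, hden, abs_of_pos hpos]
    rfl
  rw [hfun]
  exact ((hf.comp (tendsto_smul_atImInfty h10)).mul_const _).mul_const _

/-- `diag(N,1) γ = δ [[A,B],[0,D]]` with `A = gcd(N,c)`, `A D = N`. -/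
theorem exists_decomp {N : ℕ} (hN : N ≠ 0) (γ : SL(2, ℤ)) :
    ∃ (δ : SL(2, ℤ)) (A D : ℕ) (B : ℤ) (hAD : (A : ℝ) * (D : ℝ) ≠ 0),
      A * D = N ∧ (A : ℤ) ∣ γ 1 0 ∧
      heckeDiagMatrix N * mapGL ℝ γ = mapGL ℝ δ * upperTriangularGL A B D hAD := by
  have hdet : γ 0 0 * γ 1 1 - γ 0 1 * γ 1 0 = 1 := by
    have := γ.det_coe
    rwa [Matrix.det_fin_two] at this
  set a := γ 0 0 with ha
  set b := γ 0 1 with hb
  set c := γ 1 0 with hc
  set d := γ 1 1 with hd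
  obtain ⟨A, hA⟩ : ∃ A : ℕ, A = Int.gcd N c := ⟨_, rfl⟩
  have hA0 : A ≠ 0 := by
    rw [hA]
    intro h
    rw [Int.gcd_eq_zero_iff] at h
    exact hN (by exact_mod_cast h.1)
  obtain ⟨D, hD⟩ : (A : ℕ) ∣ N := by
    have : (A : ℤ) ∣ (N : ℤ) := by rw [hA]; exact Int.gcd_dvd_left _ _
    exact_mod_cast this
  obtain ⟨c', hc'⟩ : (A : ℤ) ∣ c := by rw [hA]; exact Int.gcd_dvd_right _ _
  have hbez0 : (A : ℤ) = N * Int.gcdA N c + c * Int.gcdB N c := by
    rw [hA]; exact Int.gcd_eq_gcd_ab _ _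
  set u := Int.gcdA N c
  set v := Int.gcdB N c
  have hA0' : (A : ℤ) ≠ 0 := by exact_mod_cast hA0
  have hNZ : (N : ℤ) = A * D := by exact_mod_cast hD
  have hbez : (D : ℤ) * u + c' * v = 1 := by
    apply mul_left_cancel₀ hA0'
    rw [hNZ, hc'] at hbez0
    linear_combination -hbez0
  have hD0 : D ≠ 0 := by
    rintro rfl
    exact hN (by simpa using hD)
  obtain ⟨x, hx⟩ : ∃ x : ℤ, x = u * d := ⟨_, rfl⟩
  obtain ⟨y, hy⟩ : ∃ y : ℤ, y = v - N * b * u := ⟨_, rfl⟩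
  have hxy : x * D * a + y * c' = 1 := by
    rw [hx, hy, hNZ]
    rw [hc'] at hdet
    linear_combination hbez + (D : ℤ) * u * hdet
  obtain ⟨δ, hδ⟩ : ∃ δ : SL(2, ℤ),
      (δ : Matrix (Fin 2) (Fin 2) ℤ) = !![D * a, -y; c', x] := by
    refine ⟨⟨!![D * a, -y; c', x], ?_⟩, rfl⟩
    rw [Matrix.det_fin_two_of]
    linear_combination hxy
  have hAD : (A : ℝ) * (D : ℝ) ≠ 0 := by
    have h1 : (A : ℝ) ≠ 0 := by exact_mod_cast hA0
    have h2 : (D : ℝ) ≠ 0 := by exact_mod_cast hD0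
    exact mul_ne_zero h1 h2
  refine ⟨δ, A, D, x * N * b + y * d, hAD, hD.symm, ⟨c', hc'⟩, ?_⟩
  have e00 : (N : ℤ) * a = D * a * A := by rw [hNZ]; ring
  have e10 : c = c' * A := by rw [hc']; ring
  have e01 : (N : ℤ) * b = D * a * (x * N * b + y * d) + -(y * D) := by
    rw [hc'] at hdet
    rw [hNZ]
    linear_combination (-(D : ℤ) * y) * hdet - (A : ℤ) * D * b * hxy
  have e11 : d = c' * (x * N * b + y * d) + x * D := by
    rw [hc'] at hdet
    rw [hNZ]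
    linear_combination ((x : ℤ) * D) * hdet - d * hxy
  apply Units.ext
  rw [Units.val_mul, Units.val_mul, val_heckeDiagMatrix hN, val_upperTriangularGL]
  ext i j
  fin_cases i <;> fin_cases j
  · simp [Matrix.mul_apply, Fin.sum_univ_two, hδ, ← ha]
    exact_mod_cast e00
  · simp [Matrix.mul_apply, Fin.sum_univ_two, hδ, ← hb]
    exact_mod_cast e01
  · simp [Matrix.mul_apply, Fin.sum_univ_two, hδ, ← hc]
    exact_mod_cast e10
  · simp [Matrix.mul_apply, Fin.sum_univ_two, hδ, ← hd]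
    exact_mod_cast e11

theorem tendsto_theta (N : ℕ) [NeZero N] : Tendsto (theta N) atImInfty (𝓝 ((N : ℂ) ^ 3)) := by
  have h10 : (heckeDiagMatrix N : GL (Fin 2) ℝ) 1 0 = 0 := by
    simp [val_heckeDiagMatrix (NeZero.ne N)]
  have h := (tendsto_E4.comp (tendsto_smul_atImInfty h10)).const_mul ((N : ℂ) ^ 3)
  rw [mul_one] at h
  exact h.congr fun τ => (theta_apply N τ).symm

/-- The stabiliser of `θ` in `SL(2,ℤ)` is `Γ₀(N)`. -/
theorem theta_stab (N : ℕ) [NeZero N] (γ : SL(2, ℤ))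
    (h : (⇑(theta N)) ∣[(4 : ℤ)] γ = ⇑(theta N)) : γ ∈ CongruenceSubgroup.Gamma0 N := by
  obtain ⟨δ, A, D, B, hAD, hN, hAc, hmat⟩ := exists_decomp (NeZero.ne N) γ
  have h1 : (⇑(theta N)) ∣[(4 : ℤ)] γ = ⇑E₄ ∣[(4 : ℤ)] upperTriangularGL A B D hAD := by
    rw [coe_theta]
    change (⇑E₄ ∣[(4 : ℤ)] heckeDiagMatrix N) ∣[(4 : ℤ)] (mapGL ℝ γ) = _
    rw [← SlashAction.slash_mul, hmat, SlashAction.slash_mul]
    congr 1
    exact E₄.slash_action_eq' _ ⟨δ, rfl⟩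
  have hpos : (0 : ℝ) < (A : ℝ) * (D : ℝ) := lt_of_le_of_ne (by positivity) hAD.symm
  have l1 := tendsto_slash_upper tendsto_E4 4 A B D hAD hpos
  rw [← h1, h] at l1
  have heq := tendsto_nhds_unique l1 (tendsto_theta N)
  have hNC : (N : ℂ) ≠ 0 := by exact_mod_cast NeZero.ne N
  have hD0 : (D : ℂ) ≠ 0 := by
    intro h0
    apply hAD
    have : (D : ℝ) = 0 := by exact_mod_cast h0
    rw [this, mul_zero]
  have hADN : (((A : ℝ) * (D : ℝ) : ℝ) : ℂ) = (N : ℂ) := by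
    rw [← hN]; push_cast; ring
  rw [hADN] at heq
  have hD4 : (D : ℂ) ^ 4 = 1 := by
    have h2 : (N : ℂ) ^ 3 * ((D : ℝ) : ℂ) ^ (-4 : ℤ) = (N : ℂ) ^ 3 := by
      have : (1 : ℂ) * (N : ℂ) ^ ((4 : ℤ) - 1) * ((D : ℝ) : ℂ) ^ (-4 : ℤ) = (N : ℂ) ^ 3 := heq
      rw [one_mul] at this
      have e : (N : ℂ) ^ ((4 : ℤ) - 1) = (N : ℂ) ^ 3 := by norm_num
      rwa [e] at this
    have h3 : ((D : ℝ) : ℂ) ^ (-4 : ℤ) = 1 := by
      have := mul_left_cancel₀ (pow_ne_zero 3 hNC) (h2.trans (mul_one _).symm)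
      exact this
    rw [zpow_neg, inv_eq_one] at h3
    have h4 : ((D : ℝ) : ℂ) = (D : ℂ) := by push_cast; rfl
    rw [h4] at h3
    exact_mod_cast h3
  have hD1 : D = 1 := by
    have : D ^ 4 = 1 := by exact_mod_cast hD4
    exact (Nat.pow_eq_one.mp this).resolve_right (by norm_num)
  rw [hD1, mul_one] at hN
  rw [CongruenceSubgroup.Gamma0_mem, ZMod.intCast_zmod_eq_zero_iff_dvd, ← hN]
  exact hAc

theorem exists_theta (N : ℕ) [NeZero N] :
    ∃ θ : ModularForm (CongruenceSubgroup.Gamma0 N) 4,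
      (∃ Q : PowerSeries ℤ, Q.map (Int.castRingHom ℂ) = qExpansion 1 θ) ∧
      ∀ γ : SL(2, ℤ), γ ∉ CongruenceSubgroup.Gamma0 N → (⇑θ) ∣[(4 : ℤ)] γ ≠ ⇑θ := by
  obtain ⟨Q, hQ⟩ := theta_hasIntQ N
  exact ⟨theta N, ⟨Q, hQ.symm⟩, fun γ hγ h => hγ (theta_stab N γ h)⟩

/-- The `SL(2,ℤ)`-conjugates of `θ` are pairwise distinct. -/
theorem quotientFunc_theta_injective (N : ℕ) [NeZero N] :
    Function.Injective (SlashInvariantForm.quotientFunc
      (𝒢 := (CongruenceSubgroup.Gamma0 N).map (mapGL ℝ)) (ℋ := 𝒮ℒ) (k := 4) (theta N)) := by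
  intro q q' h
  induction q using Quotient.inductionOn with
  | h g =>
  induction q' using Quotient.inductionOn with
  | h g' =>
  rw [SlashInvariantForm.quotientFunc_mk, SlashInvariantForm.quotientFunc_mk] at h
  obtain ⟨γ, hγ⟩ := g.2
  obtain ⟨γ', hγ'⟩ := g'.2
  have h2 : (⇑(theta N)) ∣[(4 : ℤ)] (γ⁻¹ * γ') = ⇑(theta N) := by
    change (⇑(theta N)) ∣[(4 : ℤ)] (mapGL ℝ (γ⁻¹ * γ')) = ⇑(theta N)
    rw [map_mul, map_inv, hγ, hγ', SlashAction.slash_mul, h, ← SlashAction.slash_mul,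
      inv_mul_cancel, SlashAction.slash_one]
  have h3 := theta_stab N _ h2
  apply Quotient.sound
  change QuotientGroup.leftRel _ g g'
  rw [QuotientGroup.leftRel_apply, Subgroup.mem_subgroupOf]
  refine ⟨γ⁻¹ * γ', h3, ?_⟩
  rw [map_mul, map_inv, hγ, hγ']
  rfl

end Fermat.Agent.Lib.IS
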